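import Mathlib
import Fermat.Agent.FF.S32.Subquot

/-!
# PROGRAM TT (moonshot S33), part P0: transport of a GENERIC predicate along the annihilator criterion

Owner: helper15.  Prefix `ttt`.  Imports main's `FF/S32/Subquot.lean` (the `α`/`β` construction).

`P` is any predicate on finite Galois modules `(X, act)` which is closed under
* stable subgroups (more generally: injective equivariant additive maps),
* equivariant quotients,
* binary products.
Then: if every `a ∈ ℤ[G]` killing `Y` kills `V`, `P Y actY` implies `P V actV`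
(`V` is an equivariant quotient of the stable subgroup `range α` of `Y^(V × Y)`).

The binder shapes of the three closure hypotheses are those of `FfSubSpec`, `FfQuotSpec`,
`FfProdSpec` (`FF/Spec.lean`) with `FfModOrd ℓ` replaced by `P`.
-/

set_option autoImplicit false
set_option linter.style.haveILetI false
set_option linter.unusedSectionVars false

namespace Fermat.Agent.FF

open scoped BigOperators

/-- closure of a predicate on Galois modules under injective equivariant maps. -/
def TttSub (P : ∀ (X : Type) [AddCommGroup X], (FfGal → X → X) → Prop) : Prop :=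
  ∀ (M M' : Type) [AddCommGroup M] [AddCommGroup M'] [Finite M] (act : FfGal → M → M)
    (act' : FfGal → M' → M') (i : M' →+ M), Function.Injective i →
    (∀ σ m, i (act' σ m) = act σ (i m)) → FfAct M act → P M act → P M' act'

/-- closure of a predicate on Galois modules under equivariant quotients. -/
def TttQuot (P : ∀ (X : Type) [AddCommGroup X], (FfGal → X → X) → Prop) : Prop :=
  ∀ (M M' : Type) [AddCommGroup M] [AddCommGroup M'] [Finite M] (act : FfGal → M → M)
    (act' : FfGal → M' → M') (q : M →+ M'), Function.Surjective q →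
    (∀ σ m, q (act σ m) = act' σ (q m)) → FfAct M act → P M act → P M' act'

/-- closure of a predicate on Galois modules under binary products. -/
def TttProd (P : ∀ (X : Type) [AddCommGroup X], (FfGal → X → X) → Prop) : Prop :=
  ∀ (M M' : Type) [AddCommGroup M] [AddCommGroup M'] [Finite M] [Finite M']
    (act : FfGal → M → M) (act' : FfGal → M' → M'), FfAct M act → FfAct M' act' →
    P M act → P M' act' → P (M × M') (fun σ x => (act σ x.1, act' σ x.2))

section Pow

variable (P : ∀ (X : Type) [AddCommGroup X], (FfGal → X → X) → Prop)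

theorem ttt_pow_fin (hsub : TttSub P) (hprod : TttProd P) (Y : Type) [AddCommGroup Y]
    [Finite Y] (act : FfGal → Y → Y) (hact : FfAct Y act) (h : P Y act) :
    ∀ r : ℕ, P (Fin (r + 1) → Y) (fun σ x i => act σ (x i)) := by
  intro r
  induction r with
  | zero =>
    refine hsub Y (Fin (0 + 1) → Y) act _ (Pi.evalAddMonoidHom (fun _ => Y) 0) ?_
      (fun σ x => rfl) hact h
    intro x y hxy
    funext i
    have hi : i = 0 := by
      haveI : Subsingleton (Fin (0 + 1)) := inferInstanceAs (Subsingleton (Fin 1))
      exact Subsingleton.elim _ _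
    rw [hi]
    exact hxy
  | succ r ih =>
    have h2 := hprod Y (Fin (r + 1) → Y) act (fun σ x i => act σ (x i)) hact
      (ff32s_act_pi hact _) h ih
    let i : (Fin (r + 1 + 1) → Y) →+ Y × (Fin (r + 1) → Y) :=
      { toFun := fun x => (x 0, fun j => x j.succ)
        map_zero' := rfl
        map_add' := fun _ _ => rfl }
    refine hsub (Y × (Fin (r + 1) → Y)) (Fin (r + 1 + 1) → Y) _ _ i ?_ (fun σ x => rfl)
      (ff32s_act_prod hact (ff32s_act_pi hact _)) h2
    intro x y hxy
    have h0 : x 0 = y 0 := congrArg Prod.fst hxy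
    have hs : (fun j : Fin (r + 1) => x j.succ) = fun j => y j.succ := congrArg Prod.snd hxy
    funext j
    refine Fin.cases h0 (fun j' => congrFun hs j') j

/-- `P` passes to every nonempty finite power (diagonal action). -/
theorem ttt_pow (hsub : TttSub P) (hprod : TttProd P) (Y : Type) [AddCommGroup Y]
    [Finite Y] (act : FfGal → Y → Y) (hact : FfAct Y act) (h : P Y act)
    (ι : Type) [Finite ι] [Nonempty ι] : P (ι → Y) (fun σ x i => act σ (x i)) := by
  classical
  haveI := Fintype.ofFinite ι
  obtain ⟨r, hr⟩ : ∃ r, Fintype.card ι = r + 1 :=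
    ⟨Fintype.card ι - 1, (Nat.succ_pred_eq_of_pos Fintype.card_pos).symm⟩
  let e : ι ≃ Fin (r + 1) := Fintype.equivFinOfCardEq hr
  let i : (ι → Y) →+ (Fin (r + 1) → Y) :=
    { toFun := fun x j => x (e.symm j)
      map_zero' := rfl
      map_add' := fun _ _ => rfl }
  refine hsub (Fin (r + 1) → Y) (ι → Y) _ _ i ?_ (fun σ x => rfl) (ff32s_act_pi hact _)
    (ttt_pow_fin P hsub hprod Y act hact h r)
  intro x y hxy
  funext a
  have := congrFun hxy (e a)
  simpa [i] using this

end Pow

/-- **(ALG), generic form**: a predicate closed under stable subgroups, equivariant quotients and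
binary products is transported along the annihilator criterion. -/
theorem ttt_transport (P : ∀ (X : Type) [AddCommGroup X], (FfGal → X → X) → Prop)
    (hsub : TttSub P) (hquot : TttQuot P) (hprod : TttProd P)
    (Y V : Type) [AddCommGroup Y] [AddCommGroup V] [Finite Y] [Finite V]
    (actY : FfGal → Y → Y) (actV : FfGal → V → V) (hY : FfAct Y actY) (hV : FfAct V actV)
    (hann : ∀ a : FfGal →₀ ℤ, (∀ y : Y, (a.sum fun g k => k • actY g y) = 0) →
      ∀ v : V, (a.sum fun g k => k • actV g v) = 0)
    (hord : P Y actY) : P V actV := by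
  classical
  haveI : Fintype V := Fintype.ofFinite V
  -- the power
  have hpow : P (V × Y → Y) (fun σ x i => actY σ (x i)) :=
    ttt_pow P hsub hprod Y actY hY hord (V × Y)
  have hactP : FfAct (V × Y → Y) (fun σ x i => actY σ (x i)) := ff32s_act_pi hY _
  -- the stable subgroup
  set M₁ : AddSubgroup (V × Y → Y) := (ff32sAlpha (V := V) actY).range with hM₁
  have hstab : ∀ (σ : FfGal) (x : V × Y → Y), x ∈ M₁ → (fun i => actY σ (x i)) ∈ M₁ := by
    rintro σ _ ⟨f, rfl⟩
    exact ⟨ff32sShift σ f, funext fun i => (ff32s_alpha_shift hY σ f i).symm⟩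
  let act₁ : FfGal → ↥M₁ → ↥M₁ := fun σ x => ⟨fun i => actY σ (x.1 i), hstab σ x.1 x.2⟩
  have hact₁ : FfAct ↥M₁ act₁ :=
    ⟨fun x => Subtype.ext (hactP.one x.1), fun σ τ x => Subtype.ext (hactP.mul σ τ x.1),
      fun σ x y => Subtype.ext (hactP.add σ x.1 y.1)⟩
  have hord₁ : P ↥M₁ act₁ :=
    hsub (V × Y → Y) ↥M₁ _ act₁ M₁.subtype Subtype.val_injective (fun σ x => rfl) hactP hpow
  -- the quotient map
  have hex : ∀ x : ↥M₁, ∃ f, ff32sAlpha actY f = x.1 := fun x => x.2
  choose F hF using hex
  have hkey : ∀ (x : ↥M₁) (f : V → FfGal →₀ ℤ), ff32sAlpha actY f = x.1 →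
      ff32sBeta actV (F x) = ff32sBeta actV f := by
    intro x f hf
    have h1 : ff32sAlpha actY (F x - f) = 0 := by
      rw [map_sub, hF, hf, sub_self]
    have h2 := ff32s_ker hann _ h1
    rw [map_sub, sub_eq_zero] at h2
    exact h2
  have hmem : ∀ f, ff32sAlpha (V := V) actY f ∈ M₁ := fun f => ⟨f, rfl⟩
  let q : ↥M₁ →+ V := AddMonoidHom.mk' (fun x => ff32sBeta actV (F x)) (by
    intro x y
    have h1 : ff32sAlpha actY (F x + F y) = (x + y).1 := by
      rw [map_add, hF, hF]
      rfl
    change ff32sBeta actV (F (x + y)) = ff32sBeta actV (F x) + ff32sBeta actV (F y)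
    rw [hkey (x + y) _ h1, map_add])
  have hqdef : ∀ x : ↥M₁, q x = ff32sBeta actV (F x) := fun x => rfl
  have hsurj : Function.Surjective q := by
    intro v
    refine ⟨⟨ff32sAlpha actY (Pi.single v (Finsupp.single 1 1)), hmem _⟩, ?_⟩
    rw [hqdef, hkey _ (Pi.single v (Finsupp.single 1 1)) rfl, ff32sBeta_apply,
      Finset.sum_eq_single v]
    · rw [Pi.single_eq_same, ff32sSum_single, one_smul, hV.one]
    · intro v' _ hne
      rw [Pi.single_eq_of_ne hne, map_zero]
    · intro h
      exact absurd (Finset.mem_univ _) h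
  have hequiv : ∀ (σ : FfGal) (x : ↥M₁), q (act₁ σ x) = actV σ (q x) := by
    intro σ x
    have h1 : ff32sAlpha actY (ff32sShift σ (F x)) = (act₁ σ x).1 := by
      funext i
      rw [← ff32s_alpha_shift hY σ (F x) i, hF]
    rw [hqdef, hqdef, hkey _ _ h1, ff32s_beta_shift hV]
  exact hquot ↥M₁ V act₁ actV q hsurj hequiv hact₁ hord₁

/-- the `FfModOrd` instance recovers `ff32s_main` (sanity check of the binder shapes). -/
theorem ttt_check (ℓ : ℕ) (hsub : FfSubSpec ℓ) (hquot : FfQuotSpec ℓ) (hprod : FfProdSpec ℓ) :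
    Ff32SubquotSpec ℓ := fun Y V _ _ _ _ actY actV hY hV hann hord =>
  ttt_transport (fun X _ act => FfModOrd ℓ X act) hsub hquot hprod Y V actY actV hY hV hann hord

end Fermat.Agent.FF
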