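import Mathlib
import Fermat.Agent.TT.P0.Transport

/-!
# PROGRAM TT, part P0: the predicate (KR) is closed under sub / quotient / product

Owner: helper15.  Prefix `ttx` (scratch names until helper2's `TT/P0/Spec.lean` is pushed).
-/

set_option autoImplicit false

namespace Fermat.Agent.FF

/-- the subgroup generated by the `σ x - x`, `σ ∈ I`. -/
def ttxMin (I : Subgroup FfGal) (X : Type) [AddCommGroup X] (act : FfGal → X → X) :
    AddSubgroup X :=
  AddSubgroup.closure {z | ∃ σ ∈ I, ∃ x, z = act σ x - x}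

/-- (KR), intrinsic form: inside `ttxMin` there is no nonzero `I`-trivial subquotient. -/
def TtxKR (I : Subgroup FfGal) (X : Type) [AddCommGroup X] (act : FfGal → X → X) : Prop :=
  ∀ A B : AddSubgroup X, B ≤ A → A ≤ ttxMin I X act →
    (∀ σ ∈ I, ∀ a ∈ A, act σ a ∈ A) → (∀ σ ∈ I, ∀ b ∈ B, act σ b ∈ B) →
    (∀ σ ∈ I, ∀ a ∈ A, act σ a - a ∈ B) → A ≤ B

variable (I : Subgroup FfGal)

/-- additive equivariant maps send `ttxMin` into `ttxMin`. -/
theorem ttx_map_min {M M' : Type} [AddCommGroup M] [AddCommGroup M'] {act : FfGal → M → M}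
    {act' : FfGal → M' → M'} (i : M' →+ M) (hi : ∀ σ m, i (act' σ m) = act σ (i m)) :
    (ttxMin I M' act').map i ≤ ttxMin I M act := by
  rw [ttxMin, AddMonoidHom.map_closure]
  refine AddSubgroup.closure_mono ?_
  rintro _ ⟨z, ⟨σ, hσ, x, rfl⟩, rfl⟩
  exact ⟨σ, hσ, i x, by rw [map_sub, hi]⟩

/-- for a surjective equivariant map `ttxMin` maps ONTO `ttxMin`. -/
theorem ttx_map_min_surj {M M' : Type} [AddCommGroup M] [AddCommGroup M'] {act : FfGal → M → M}
    {act' : FfGal → M' → M'} (q : M →+ M') (hq : Function.Surjective q)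
    (hqe : ∀ σ m, q (act σ m) = act' σ (q m)) :
    ttxMin I M' act' ≤ (ttxMin I M act).map q := by
  rw [ttxMin, AddSubgroup.closure_le]
  rintro _ ⟨σ, hσ, x', rfl⟩
  obtain ⟨x, rfl⟩ := hq x'
  refine ⟨act σ x - x, AddSubgroup.subset_closure ⟨σ, hσ, x, rfl⟩, ?_⟩
  rw [map_sub, hqe]

theorem ttx_sub : TttSub (fun X _ act => TtxKR I X act) := by
  intro M M' _ _ _ act act' i hinj hi _ h A B hBA hA hsA hsB htriv
  -- push forward along `i`
  have := h (A.map i) (B.map i) (AddSubgroup.map_mono hBA)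
    (le_trans (AddSubgroup.map_mono hA) (ttx_map_min I i hi))
    (by
      rintro σ hσ _ ⟨a, ha, rfl⟩
      exact ⟨act' σ a, hsA σ hσ a ha, hi σ a⟩)
    (by
      rintro σ hσ _ ⟨b, hb, rfl⟩
      exact ⟨act' σ b, hsB σ hσ b hb, hi σ b⟩)
    (by
      rintro σ hσ _ ⟨a, ha, rfl⟩
      exact ⟨act' σ a - a, htriv σ hσ a ha, by rw [map_sub, hi]⟩)
  intro a ha
  obtain ⟨b, hb, hba⟩ := this ⟨a, ha, rfl⟩
  rwa [← hinj hba]

theorem ttx_quot : TttQuot (fun X _ act => TtxKR I X act) := by
  intro M M' _ _ _ act act' q hq hqe hact h A B hBA hA hsA hsB htriv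
  -- pull back into `ttxMin I M act`
  set A₁ : AddSubgroup M := A.comap q ⊓ ttxMin I M act with hA₁
  set B₁ : AddSubgroup M := B.comap q ⊓ ttxMin I M act with hB₁
  have hminstab : ∀ σ ∈ I, ∀ m ∈ ttxMin I M act, act σ m ∈ ttxMin I M act := by
    intro σ hσ m hm
    have : act σ m = (act σ m - m) + m := by abel
    rw [this]
    exact add_mem (AddSubgroup.subset_closure ⟨σ, hσ, m, rfl⟩) hm
  have key := h A₁ B₁ (inf_le_inf_right _ (AddSubgroup.comap_mono hBA)) inf_le_right
    (by
      intro σ hσ a ha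
      refine ⟨?_, hminstab σ hσ a ha.2⟩
      change q (act σ a) ∈ A
      rw [hqe]
      exact hsA σ hσ _ ha.1)
    (by
      intro σ hσ b hb
      refine ⟨?_, hminstab σ hσ b hb.2⟩
      change q (act σ b) ∈ B
      rw [hqe]
      exact hsB σ hσ _ hb.1)
    (by
      intro σ hσ a ha
      refine ⟨?_, AddSubgroup.subset_closure ⟨σ, hσ, a, rfl⟩⟩
      change q (act σ a - a) ∈ B
      rw [map_sub, hqe]
      exact htriv σ hσ _ ha.1)
  intro a' ha'
  obtain ⟨a, ha, rfl⟩ := ttx_map_min_surj I q hq hqe (hA ha')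
  exact (key ⟨ha', ha⟩).1

theorem ttx_prod : TttProd (fun X _ act => TtxKR I X act) := by
  intro M M' _ _ _ _ act act' hact hact' h h' A B hBA hA hsA hsB htriv
  set actP : FfGal → M × M' → M × M' := fun σ x => (act σ x.1, act' σ x.2) with hactP
  -- `ttxMin` of the product lies in the product of the `ttxMin`
  have hmin1 : (ttxMin I (M × M') actP).map (AddMonoidHom.fst M M') ≤ ttxMin I M act :=
    ttx_map_min I (AddMonoidHom.fst M M') (fun σ m => rfl)
  have hmin2 : (ttxMin I (M × M') actP).map (AddMonoidHom.snd M M') ≤ ttxMin I M' act' :=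
    ttx_map_min I (AddMonoidHom.snd M M') (fun σ m => rfl)
  -- step 1: second projections
  have k2 := h' (A.map (AddMonoidHom.snd M M')) (B.map (AddMonoidHom.snd M M'))
    (AddSubgroup.map_mono hBA) (le_trans (AddSubgroup.map_mono hA) hmin2)
    (by
      rintro σ hσ _ ⟨a, ha, rfl⟩
      exact ⟨actP σ a, hsA σ hσ a ha, rfl⟩)
    (by
      rintro σ hσ _ ⟨b, hb, rfl⟩
      exact ⟨actP σ b, hsB σ hσ b hb, rfl⟩)
    (by
      rintro σ hσ _ ⟨a, ha, rfl⟩
      exact ⟨actP σ a - a, htriv σ hσ a ha, rfl⟩)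
  -- step 2: the slices `M × 0`
  set i1 : M →+ M × M' := AddMonoidHom.inl M M' with hi1
  have k1 := h (A.comap i1) (B.comap i1) (AddSubgroup.comap_mono hBA)
    (by
      intro a ha
      have h1 : i1 a ∈ ttxMin I (M × M') actP := hA ha
      have h2 := hmin1 ⟨i1 a, h1, rfl⟩
      simpa [hi1] using h2)
    (by
      intro σ hσ a ha
      have := hsA σ hσ (i1 a) ha
      have e : actP σ (i1 a) = i1 (act σ a) := by
        refine Prod.ext rfl ?_
        change act' σ 0 = 0
        have h0 := hact'.add σ 0 0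
        rw [add_zero] at h0
        exact left_eq_add.mp h0
      rw [e] at this
      exact this)
    (by
      intro σ hσ b hb
      have := hsB σ hσ (i1 b) hb
      have e : actP σ (i1 b) = i1 (act σ b) := by
        refine Prod.ext rfl ?_
        change act' σ 0 = 0
        have h0 := hact'.add σ 0 0
        rw [add_zero] at h0
        exact left_eq_add.mp h0
      rw [e] at this
      exact this)
    (by
      intro σ hσ a ha
      have := htriv σ hσ (i1 a) ha
      have e : actP σ (i1 a) - i1 a = i1 (act σ a - a) := by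
        refine Prod.ext rfl ?_
        change act' σ 0 - 0 = 0
        have h0 := hact'.add σ 0 0
        rw [add_zero] at h0
        rw [sub_zero]
        exact left_eq_add.mp h0
      rw [e] at this
      exact this)
  intro a ha
  obtain ⟨b, hb, hba⟩ := k2 ⟨a, ha, rfl⟩
  have hab : a - b ∈ A := sub_mem ha (hBA hb)
  have hform : a - b = i1 (a - b).1 := by
    refine Prod.ext rfl ?_
    change a.2 - b.2 = 0
    have : b.2 = a.2 := hba
    rw [this, sub_self]
  have h3 : (a - b).1 ∈ A.comap i1 := by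
    change i1 (a - b).1 ∈ A
    rw [← hform]
    exact hab
  have h4 : i1 (a - b).1 ∈ B := k1 h3
  rw [← hform] at h4
  have : a = (a - b) + b := by abel
  rw [this]
  exact add_mem h4 hb

/-- **(KR) is transported along the annihilator criterion.** -/
theorem ttx_transport (Y V : Type) [AddCommGroup Y] [AddCommGroup V] [Finite Y] [Finite V]
    (actY : FfGal → Y → Y) (actV : FfGal → V → V) (hY : FfAct Y actY) (hV : FfAct V actV)
    (hann : ∀ a : FfGal →₀ ℤ, (∀ y : Y, (a.sum fun g k => k • actY g y) = 0) →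
      ∀ v : V, (a.sum fun g k => k • actV g v) = 0)
    (h : TtxKR I Y actY) : TtxKR I V actV :=
  ttt_transport (fun X _ act => TtxKR I X act) (ttx_sub I) (ttx_quot I) (ttx_prod I) Y V actY actV
    hY hV hann h

end Fermat.Agent.FF
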