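import Mathlib
import Fermat.Agent.TT.P0.Closure
import Fermat.Agent.FF.Top
import Fermat.Agent.FF.LevelSpec

/-!
# PROGRAM TT, part P0, leaf R4: (KR) passes from the good level `N (5 - p)` down to `N`

Owner: helper15.  Prefix `ttx`.

`J₀(N)[ℓ^k]` is an equivariant quotient of a stable subgroup of `J₀(N a)[ℓ^(k+s)]` when
`a + 1 = ℓ^s` (`FfLevelSpec`, main's `fflq_spec`, no hypothesis `ℓ ∤ N`).  The intrinsic predicate
(KR) passes to stable subgroups and equivariant quotients (`ttx_sub`, `ttx_quot`), hence from level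
`N a` to level `N`.  For `p = 3`, `N` odd: `a = 2`, `3 ∥ 2N`, `2 ∣ 2N`.
-/

set_option autoImplicit false

namespace Fermat.Agent.FF

open ModularCurve

/-- transport of (KR) along `FfLevelSpec` (sub, then quotient). -/
theorem ttx_level (I : Subgroup FfGal) (ℓ : ℕ) [Fact ℓ.Prime]
    (N a s k : ℕ) [NeZero N] [NeZero (N * a)] (hLvl : FfLevelSpec N a ℓ s k)
    (h : TtxKR I ↥(Submodule.torsionBy ℤ (JZero (N * a)) ((ℓ : ℤ) ^ (k + s)))
      (ffTorsAct (N * a) ((ℓ : ℤ) ^ (k + s)))) :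
    TtxKR I ↥(Submodule.torsionBy ℤ (JZero N) ((ℓ : ℤ) ^ k)) (ffTorsAct N ((ℓ : ℤ) ^ k)) := by
  haveI := fftp_finite (N * a) ℓ (k + s)
  obtain ⟨M₁, q, hst, hq, heq⟩ := hLvl
  -- the action on the stable subgroup
  let act₁ : FfGal → ↥M₁ → ↥M₁ := fun σ y =>
    ⟨ffTorsAct (N * a) ((ℓ : ℤ) ^ (k + s)) σ y.1, hst σ y.1 y.2⟩
  have hact := fftp_act (N * a) ((ℓ : ℤ) ^ (k + s))
  have hact₁ : FfAct ↥M₁ act₁ :=
    { one := fun m => Subtype.ext (hact.one m.1)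
      mul := fun σ τ m => Subtype.ext (hact.mul σ τ m.1)
      add := fun σ m m' => Subtype.ext (hact.add σ m.1 m'.1) }
  have h₁ : TtxKR I ↥M₁ act₁ :=
    ttx_sub I _ ↥M₁ _ act₁ M₁.subtype Subtype.val_injective (fun σ m => rfl) hact h
  haveI : Finite ↥M₁ := Finite.of_injective _ Subtype.val_injective
  exact ttx_quot I ↥M₁ _ act₁ _ q hq (fun σ m => heq σ m (hst σ m.1 m.2)) hact₁ h₁

/-- the case `ℓ = 3`, `N` odd: from level `2N` (exponent `k + 1`) to level `N`. -/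
theorem ttx_level_three (I : Subgroup FfGal) (N : ℕ) [NeZero N] (h2 : ¬ 2 ∣ N) (k : ℕ)
    (h : TtxKR I ↥(Submodule.torsionBy ℤ (JZero (N * 2)) (((3 : ℕ) : ℤ) ^ (k + 1)))
      (ffTorsAct (N * 2) (((3 : ℕ) : ℤ) ^ (k + 1)))) :
    TtxKR I ↥(Submodule.torsionBy ℤ (JZero N) (((3 : ℕ) : ℤ) ^ k))
      (ffTorsAct N (((3 : ℕ) : ℤ) ^ k)) := by
  haveI : Fact (Nat.Prime 3) := ⟨by norm_num⟩
  haveI : NeZero (N * 2) := ⟨Nat.mul_ne_zero (NeZero.ne N) (by norm_num)⟩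
  exact ttx_level I 3 N 2 1 k (fflq_spec N 2 Nat.prime_two h2 (by norm_num) k) h

/-- **R4**: (KR) at all GOOD levels `p ∥ N` (`5 ≤ p` or `(5 - p) ∣ N`) gives (KR) at all levels
`p ∥ N`, for an odd prime `p`. -/
theorem ttx_kr_all (I : Subgroup FfGal) (p : ℕ) [Fact p.Prime] (hp2 : p ≠ 2)
    (hgood : ∀ (N : ℕ) [NeZero N] (k : ℕ), p ∣ N → ¬ p ^ 2 ∣ N → (5 ≤ p ∨ (5 - p) ∣ N) →
      TtxKR I ↥(Submodule.torsionBy ℤ (JZero N) ((p : ℤ) ^ k)) (ffTorsAct N ((p : ℤ) ^ k)))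
    (N : ℕ) [NeZero N] (k : ℕ) (hpN : p ∣ N) (hp2N : ¬ p ^ 2 ∣ N) :
    TtxKR I ↥(Submodule.torsionBy ℤ (JZero N) ((p : ℤ) ^ k)) (ffTorsAct N ((p : ℤ) ^ k)) := by
  have hp : p.Prime := Fact.out
  by_cases hg : 5 ≤ p ∨ (5 - p) ∣ N
  · exact hgood N k hpN hp2N hg
  · rw [not_or, not_le] at hg
    obtain ⟨h5, hdvd⟩ := hg
    -- `p = 3`
    have hp3 : p = 3 := by
      have h2 := hp.two_le
      interval_cases p
      · exact absurd rfl hp2
      · rfl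
      · exact absurd hp (by norm_num)
    subst hp3
    have h2N : ¬ 2 ∣ N := hdvd
    haveI : NeZero (N * 2) := ⟨Nat.mul_ne_zero (NeZero.ne N) (by norm_num)⟩
    refine ttx_level_three I N h2N k (hgood (N * 2) (k + 1) (Dvd.dvd.mul_right hpN 2) ?_
      (Or.inr (Dvd.intro_left N rfl)))
    intro h9
    have hcop : Nat.Coprime (3 ^ 2) 2 := by norm_num
    exact hp2N (hcop.dvd_of_dvd_mul_right h9)

end Fermat.Agent.FF
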