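import Mathlib
import Fermat.Agent.FF.S32.Spec
import Fermat.Agent.TT.P0.Closure

/-!
# PROGRAM TT (S33), part P0 (helper2): THE TRANSFER.  INTERFACE FILE

S33: for a Hecke–Galois datum `H` of level `N`, `p` odd, `p ∥ N`, residually ordinary at `p`, the
`T`-adic representation is ordinary at `p`.

ROUTE (helper16's (T) in its intrinsic form; no old/new splitting, no reducedness of `T`, no
multiplicity one, no Weil pairing, no count of torsion points).  Fix a place `P ∣ p`,
`I := P.inertiaSubgroupIn ℚ`.  For an additive group `X` with an action of `G_ℚ` put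
`X_min := ⟨σ x - x : σ ∈ I, x ∈ X⟩` (`ttxMin I X act`, helper15's `TT/P0/Closure.lean`).

* `TtxKR I X act` (**KR**, `TT/P0/Closure.lean`): `X_min` has no nonzero subquotient `A/B`
  (`B ≤ A ≤ X_min`, both `I`-stable) on which `I` acts trivially.
* `TtpGeoSpec N p` (**THE GEOMETRIC INPUT**): (KR) holds for `J₀(N)[p^m]`, every `m`, every place
  `P ∣ p`.  It follows from: an `I`-stable `Γ₀ ⊆ J₀(N)[p^m]` (the kernel of reduction) with
  (α) `σ x - x ∈ Γ₀` for `σ ∈ I` and (β) no `I`-trivial subquotient inside `Γ₀`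
  (`ttp_kr_of_sub` below).
* P0 (this directory): `TtpGeoSpec N p ⟹ H.ρ.IsOrdinaryAt p` (`ttp_main`, `TT/P0/Top.lean`):
  - (KR) passes to equivariant subobjects, quotients and finite products and transports along the
    annihilator criterion of S32's part D (helper15: `ttx_transport`), hence by (STAR)
    (`ff32_star`) to every `V/𝔪^n V`;
  - on `X = V/𝔪^n V` the filtration `𝔪^j V ⊇ 𝔪^j L' ⊇ 𝔪^(j+1) V` (`L'` the preimage of the residual
    ordinary line) has `I`-trivial and `(σ₀ - 1)`-invertible steps alternately, `σ₀ ∈ I` with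
    `ε(σ₀) ≢ 1 mod p`; (KR) kills the `I`-trivial steps inside `X_min`, so `σ₀ - 1` is bijective on
    `X_min`, `X_min = (σ₀ - 1)^n X` (`TT/P0/FinLevel.lean`);
  - `A := ρ(σ₀)` has an eigenvalue `β ≡ 1` (Hensel) and an eigenvector `w` for the other eigenvalue
    `α`, `α - 1` a unit; `(A - 1)^n V ⊆ T w + 𝔪^n V`, so `(σ - 1)V ⊆ ⋂ (T w + 𝔪^n V) = T w` for
    `σ ∈ I` (`TT/P0/Split.lean`), and `T w` is stable under the decomposition group because `I` is
    normal in it (`TT/P0/Gal.lean`).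
-/

set_option autoImplicit false

noncomputable section

namespace Fermat.Agent.TT

open Fermat.Agent.FF

/-- **THE GEOMETRIC INPUT OF S33**: (KR) for `J₀(N)[p^m]` at every place over `p`. -/
def TtpGeoSpec (N : ℕ) [NeZero N] (p : ℕ) : Prop :=
  ∀ P : ValuationSubring FfQb, P.LiesOverPrime p → ∀ m : ℕ,
    TtxKR (P.inertiaSubgroupIn ℚ) ↥(Submodule.torsionBy ℤ (ModularCurve.JZero N) ((p : ℤ) ^ m))
      (ffTorsAct N ((p : ℤ) ^ m))

/-- (KR) from (α) + (β) for a subgroup `Γ₀` (helper16's form of (T)). -/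
theorem ttp_kr_of_sub (I : Subgroup FfGal) (X : Type) [AddCommGroup X] (act : FfGal → X → X)
    (Γ₀ : AddSubgroup X) (hα : ∀ σ ∈ I, ∀ x : X, act σ x - x ∈ Γ₀)
    (hβ : ∀ A B : AddSubgroup X, B ≤ A → A ≤ Γ₀ →
      (∀ σ ∈ I, ∀ a ∈ A, act σ a ∈ A) → (∀ σ ∈ I, ∀ b ∈ B, act σ b ∈ B) →
      (∀ σ ∈ I, ∀ a ∈ A, act σ a - a ∈ B) → A ≤ B) : TtxKR I X act := by
  intro A B hBA hA hAs hBs htriv
  refine hβ A B hBA (hA.trans ?_) hAs hBs htriv
  rw [ttxMin, AddSubgroup.closure_le]
  rintro z ⟨σ, hσ, x, rfl⟩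
  exact hα σ hσ x

/-- generators of `X_min`. -/
theorem ttp_gen_mem (I : Subgroup FfGal) {X : Type} [AddCommGroup X] {act : FfGal → X → X}
    (σ : FfGal) (hσ : σ ∈ I) (x : X) : act σ x - x ∈ ttxMin I X act :=
  AddSubgroup.subset_closure ⟨σ, hσ, x, rfl⟩

/-- `X_min` is `I`-stable. -/
theorem ttp_min_stable (I : Subgroup FfGal) {X : Type} [AddCommGroup X] {act : FfGal → X → X}
    (σ : FfGal) (hσ : σ ∈ I) (z : X)
    (hz : z ∈ ttxMin I X act) : act σ z ∈ ttxMin I X act := by
  have := ttp_gen_mem I σ hσ z (act := act)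
  have h2 : act σ z = (act σ z - z) + z := by abel
  rw [h2]
  exact (ttxMin I X act).add_mem this hz

end Fermat.Agent.TT
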