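import Mathlib
import Fermat.Agent.FF.S32.Top
import Fermat.Agent.TT.P0.Spec

/-!
# PROGRAM T (S33), part P0: the finite level `X = V/𝔪^n V`

Owner: helper2.  Prefix `ttl`.

`ttpl_main`: if (KR) holds for `X = V/𝔪^n V` and `L' ⊆ V` is a `T`-submodule with `σ v - v ∈ L'` for
`σ ∈ I`, on which `σ₀ ∈ I` acts by `1 + u` modulo `𝔪 V` (`u` a unit), then
`(σ - 1) V ⊆ (σ₀ - 1)^k V + 𝔪^n V` for every `σ ∈ I` and every `k`.
-/

set_option autoImplicit false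
set_option linter.unusedSectionVars false

namespace Fermat.Agent.TT

open Fermat.Agent.FF

variable {T : Type} [CommRing T] [IsLocalRing T] [IsNoetherianRing T]
  [IsAdicComplete (IsLocalRing.maximalIdeal T) T] (ρ : GaloisRepAdic T) (I : Subgroup FfGal)

local notation "𝔪" => IsLocalRing.maximalIdeal T

section Steps

variable (L' : Submodule T ρ.V)

/-- `σ v - v ∈ 𝔪^j L'` for `v ∈ 𝔪^j V`. -/
theorem ttpl_step_triv (σ : FfGal) (hb : ∀ v : ρ.V, ρ.ρ σ v - v ∈ L') (j : ℕ) (v : ρ.V)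
    (hv : v ∈ (𝔪 ^ j) • (⊤ : Submodule T ρ.V)) : ρ.ρ σ v - v ∈ (𝔪 ^ j) • L' := by
  refine Submodule.smul_induction_on hv ?_ ?_
  · intro c hc w _
    have : ρ.ρ σ (c • w) - c • w = c • (ρ.ρ σ w - w) := by
      rw [map_smul, smul_sub]
    rw [this]
    exact Submodule.smul_mem_smul hc (hb w)
  · intro x y hx hy
    have : ρ.ρ σ (x + y) - (x + y) = (ρ.ρ σ x - x) + (ρ.ρ σ y - y) := by
      rw [map_add]; abel
    rw [this]
    exact Submodule.add_mem _ hx hy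

/-- `ρ(σ)` preserves `𝔪^j M` for a `ρ(σ)`-stable submodule `M`. -/
theorem ttpl_smul_stable (σ : FfGal) (M : Submodule T ρ.V) (hM : ∀ v ∈ M, ρ.ρ σ v ∈ M) (j : ℕ)
    (v : ρ.V) (hv : v ∈ (𝔪 ^ j) • M) : ρ.ρ σ v ∈ (𝔪 ^ j) • M := by
  refine Submodule.smul_induction_on hv ?_ ?_
  · intro c hc w hw
    rw [map_smul]
    exact Submodule.smul_mem_smul hc (hM w hw)
  · intro x y hx hy
    rw [map_add]
    exact Submodule.add_mem _ hx hy

/-- `σ₀ - 1 - u` maps `𝔪^j L'` into `𝔪^(j+1) V`. -/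
theorem ttpl_step_unit (σ₀ : FfGal) (u : T)
    (hc : ∀ w ∈ L', ρ.ρ σ₀ w - w - u • w ∈ 𝔪 • (⊤ : Submodule T ρ.V)) (j : ℕ) (v : ρ.V)
    (hv : v ∈ (𝔪 ^ j) • L') :
    ρ.ρ σ₀ v - v - u • v ∈ (𝔪 ^ (j + 1)) • (⊤ : Submodule T ρ.V) := by
  refine Submodule.smul_induction_on hv ?_ ?_
  · intro c hcj w hw
    have : ρ.ρ σ₀ (c • w) - c • w - u • (c • w) = c • (ρ.ρ σ₀ w - w - u • w) := by
      rw [map_smul, smul_sub, smul_sub, smul_comm u c w]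
    rw [this, pow_succ, mul_smul]
    exact Submodule.smul_mem_smul hcj (hc w hw)
  · intro x y hx hy
    have : ρ.ρ σ₀ (x + y) - (x + y) - u • (x + y)
        = (ρ.ρ σ₀ x - x - u • x) + (ρ.ρ σ₀ y - y - u • y) := by
      rw [map_add, smul_add]; abel
    rw [this]
    exact Submodule.add_mem _ hx hy

end Steps

section Main

variable (n : ℕ)

/-- the finite level. -/
local notation "X" => ρ.V ⧸ ((𝔪 ^ n) • (⊤ : Submodule T ρ.V))

/-- the level action as a function. -/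
local notation "actX" => (fun σ : FfGal => (ρ.levelAction (𝔪 ^ n) σ :
  (ρ.V ⧸ ((𝔪 ^ n) • (⊤ : Submodule T ρ.V))) → (ρ.V ⧸ ((𝔪 ^ n) • (⊤ : Submodule T ρ.V)))))

/-- the image of a submodule of `V` in `X`, as an additive subgroup. -/
def ttplIm (M : Submodule T ρ.V) : AddSubgroup (ρ.V ⧸ ((𝔪 ^ n) • (⊤ : Submodule T ρ.V))) :=
  (M.map ((𝔪 ^ n) • (⊤ : Submodule T ρ.V)).mkQ).toAddSubgroup

theorem ttpl_mem_im (M : Submodule T ρ.V) (x : ρ.V ⧸ ((𝔪 ^ n) • (⊤ : Submodule T ρ.V))) :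
    x ∈ ttplIm ρ n M ↔ ∃ v ∈ M, Submodule.Quotient.mk v = x := by
  unfold ttplIm
  rw [Submodule.mem_toAddSubgroup, Submodule.mem_map]
  rfl

theorem ttpl_mk_mem_im (M : Submodule T ρ.V) (v : ρ.V) :
    (Submodule.Quotient.mk v : ρ.V ⧸ ((𝔪 ^ n) • (⊤ : Submodule T ρ.V))) ∈ ttplIm ρ n M ↔
      v ∈ M ⊔ (𝔪 ^ n) • (⊤ : Submodule T ρ.V) := by
  rw [ttpl_mem_im]
  constructor
  · rintro ⟨w, hw, hwv⟩
    have h1 : w - v ∈ (𝔪 ^ n) • (⊤ : Submodule T ρ.V) := by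
      rw [← Submodule.Quotient.mk_eq_zero, Submodule.Quotient.mk_sub, hwv, sub_self]
    have h2 : v = w + -(w - v) := by abel
    rw [h2]
    exact Submodule.add_mem_sup hw (Submodule.neg_mem _ h1)
  · intro hv
    obtain ⟨w, hw, z, hz, rfl⟩ := Submodule.mem_sup.mp hv
    refine ⟨w, hw, ?_⟩
    rw [Submodule.Quotient.mk_add, (Submodule.Quotient.mk_eq_zero _).mpr hz, add_zero]

variable {ρ I n}

/-- **injectivity of `σ₀ - 1` on `X_min`** (downward induction on the `𝔪`-adic filtration). -/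
theorem ttpl_inj (hKR : TtxKR I (ρ.V ⧸ ((𝔪 ^ n) • (⊤ : Submodule T ρ.V)))
      (fun σ => ρ.levelAction (𝔪 ^ n) σ))
    (L' : Submodule T ρ.V) (hb : ∀ σ ∈ I, ∀ v : ρ.V, ρ.ρ σ v - v ∈ L')
    (σ₀ : FfGal) (u : T) (hu : IsUnit u)
    (hc : ∀ w ∈ L', ρ.ρ σ₀ w - w - u • w ∈ 𝔪 • (⊤ : Submodule T ρ.V)) :
    ∀ (k j : ℕ), j + k = n → ∀ v : ρ.V,
      v ∈ (𝔪 ^ j) • (⊤ : Submodule T ρ.V) ⊔ (𝔪 ^ n) • (⊤ : Submodule T ρ.V) →
      (Submodule.Quotient.mk v : ρ.V ⧸ ((𝔪 ^ n) • (⊤ : Submodule T ρ.V))) ∈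
        ttxMin I (ρ.V ⧸ ((𝔪 ^ n) • (⊤ : Submodule T ρ.V))) (fun σ => ρ.levelAction (𝔪 ^ n) σ) →
      ρ.ρ σ₀ v - v ∈ (𝔪 ^ n) • (⊤ : Submodule T ρ.V) →
      v ∈ (𝔪 ^ n) • (⊤ : Submodule T ρ.V) := by
  intro k
  induction k with
  | zero =>
    intro j hj v hv _ _
    have hjn : j = n := by omega
    rw [hjn, sup_idem] at hv
    exact hv
  | succ k ih =>
    intro j hj v hv hmin hfix
    have hjn : j + 1 ≤ n := by omega
    have hle1 : (𝔪 ^ n) • (⊤ : Submodule T ρ.V) ≤ (𝔪 ^ (j + 1)) • (⊤ : Submodule T ρ.V) :=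
      Submodule.smul_mono_left (Ideal.pow_le_pow_right hjn)
    have hact := ff32_act ρ (𝔪 ^ n)
    -- Step 1 : (KR) puts `v` into `𝔪^j L' + W`
    have hL'stab : ∀ σ ∈ I, ∀ w ∈ L', ρ.ρ σ w ∈ L' := by
      intro σ hσ w hw
      have := hb σ hσ w
      have h2 : ρ.ρ σ w = (ρ.ρ σ w - w) + w := by abel
      rw [h2]
      exact Submodule.add_mem _ this hw
    have hstep1 : (Submodule.Quotient.mk v : ρ.V ⧸ ((𝔪 ^ n) • (⊤ : Submodule T ρ.V))) ∈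
        ttplIm ρ n ((𝔪 ^ j) • L') := by
      have hAB := hKR
        (ttxMin I _ (fun σ => ρ.levelAction (𝔪 ^ n) σ) ⊓ ttplIm ρ n ((𝔪 ^ j) • (⊤ : Submodule T ρ.V)))
        (ttxMin I _ (fun σ => ρ.levelAction (𝔪 ^ n) σ) ⊓ ttplIm ρ n ((𝔪 ^ j) • L'))
        ?_ inf_le_left ?_ ?_ ?_
      · exact (AddSubgroup.mem_inf.mp (hAB (AddSubgroup.mem_inf.mpr
          ⟨hmin, (ttpl_mk_mem_im ρ n _ v).mpr hv⟩))).2
      · refine inf_le_inf_left _ ?_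
        intro x hx
        obtain ⟨w, hw, rfl⟩ := (ttpl_mem_im ρ n _ x).mp hx
        exact (ttpl_mem_im ρ n _ _).mpr ⟨w, Submodule.smul_mono le_rfl le_top hw, rfl⟩
      · intro σ hσ a ha
        obtain ⟨ha1, ha2⟩ := AddSubgroup.mem_inf.mp ha
        refine AddSubgroup.mem_inf.mpr ⟨ttp_min_stable I σ hσ a ha1, ?_⟩
        obtain ⟨w, hw, rfl⟩ := (ttpl_mem_im ρ n _ a).mp ha2
        refine (ttpl_mem_im ρ n _ _).mpr ⟨ρ.ρ σ w, ?_, (ff32_levelAction_mk ρ _ σ w).symm⟩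
        exact ttpl_smul_stable ρ σ ⊤ (fun _ _ => Submodule.mem_top) j w hw
      · intro σ hσ b hb'
        obtain ⟨hb1, hb2⟩ := AddSubgroup.mem_inf.mp hb'
        refine AddSubgroup.mem_inf.mpr ⟨ttp_min_stable I σ hσ b hb1, ?_⟩
        obtain ⟨w, hw, rfl⟩ := (ttpl_mem_im ρ n _ b).mp hb2
        refine (ttpl_mem_im ρ n _ _).mpr ⟨ρ.ρ σ w, ?_, (ff32_levelAction_mk ρ _ σ w).symm⟩
        exact ttpl_smul_stable ρ σ L' (hL'stab σ hσ) j w hw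
      · intro σ hσ a ha
        obtain ⟨_, ha2⟩ := AddSubgroup.mem_inf.mp ha
        refine AddSubgroup.mem_inf.mpr ⟨ttp_gen_mem I σ hσ a, ?_⟩
        obtain ⟨w, hw, rfl⟩ := (ttpl_mem_im ρ n _ a).mp ha2
        refine (ttpl_mem_im ρ n _ _).mpr ⟨ρ.ρ σ w - w, ?_, ?_⟩
        · exact ttpl_step_triv ρ L' σ (hb σ hσ) j w hw
        · show _ = ρ.levelAction (𝔪 ^ n) σ (Submodule.Quotient.mk w) - Submodule.Quotient.mk w
          rw [Submodule.Quotient.mk_sub, ff32_levelAction_mk]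
    -- Step 2 : the unit `u` pushes `v` into `𝔪^(j+1) V + W`
    obtain ⟨v₁, hv₁, w₀, hw₀, rfl⟩ := Submodule.mem_sup.mp ((ttpl_mk_mem_im ρ n _ v).mp hstep1)
    have h1 := ttpl_step_unit ρ L' σ₀ u hc j v₁ hv₁
    have hw₀' : ρ.ρ σ₀ w₀ - w₀ ∈ (𝔪 ^ n) • (⊤ : Submodule T ρ.V) := by
      refine Submodule.sub_mem _ ?_ hw₀
      exact ttpl_smul_stable ρ σ₀ ⊤ (fun _ _ => Submodule.mem_top) n w₀ hw₀
    have h2 : ρ.ρ σ₀ v₁ - v₁ ∈ (𝔪 ^ n) • (⊤ : Submodule T ρ.V) := by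
      have : ρ.ρ σ₀ v₁ - v₁ = (ρ.ρ σ₀ (v₁ + w₀) - (v₁ + w₀)) - (ρ.ρ σ₀ w₀ - w₀) := by
        rw [map_add]; abel
      rw [this]
      exact Submodule.sub_mem _ hfix hw₀'
    have h3 : u • v₁ ∈ (𝔪 ^ (j + 1)) • (⊤ : Submodule T ρ.V) := by
      have : u • v₁ = (ρ.ρ σ₀ v₁ - v₁) - (ρ.ρ σ₀ v₁ - v₁ - u • v₁) := by abel
      rw [this]
      exact Submodule.sub_mem _ (hle1 h2) h1
    have h4 : v₁ ∈ (𝔪 ^ (j + 1)) • (⊤ : Submodule T ρ.V) := by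
      obtain ⟨u', rfl⟩ := hu
      have := Submodule.smul_mem _ (↑u'⁻¹ : T) h3
      rwa [smul_smul, Units.inv_mul, one_smul] at this
    refine ih (j + 1) (by omega) (v₁ + w₀) ?_ hmin hfix
    exact Submodule.add_mem_sup h4 hw₀

/-- **surjectivity of `σ₀ - 1` on `X_min`** and its consequence for the whole inertia group. -/
theorem ttpl_main [Finite (ρ.V ⧸ ((𝔪 ^ n) • (⊤ : Submodule T ρ.V)))]
    (hKR : TtxKR I (ρ.V ⧸ ((𝔪 ^ n) • (⊤ : Submodule T ρ.V)))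
      (fun σ => ρ.levelAction (𝔪 ^ n) σ))
    (L' : Submodule T ρ.V) (hb : ∀ σ ∈ I, ∀ v : ρ.V, ρ.ρ σ v - v ∈ L')
    (σ₀ : FfGal) (hσ₀ : σ₀ ∈ I) (u : T) (hu : IsUnit u)
    (hc : ∀ w ∈ L', ρ.ρ σ₀ w - w - u • w ∈ 𝔪 • (⊤ : Submodule T ρ.V))
    (k : ℕ) (σ : FfGal) (hσ : σ ∈ I) (v : ρ.V) :
    ∃ v' : ρ.V, ρ.ρ σ v - v - ((ρ.ρ σ₀ - 1) ^ k) v' ∈ (𝔪 ^ n) • (⊤ : Submodule T ρ.V) := by
  classical
  have hact := ff32_act ρ (𝔪 ^ n)
  -- the endomorphism `σ₀ - 1` of `X_min`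
  set Xm := ttxMin I (ρ.V ⧸ ((𝔪 ^ n) • (⊤ : Submodule T ρ.V)))
    (fun σ => ρ.levelAction (𝔪 ^ n) σ) with hXm
  let D : ↥Xm →+ ↥Xm :=
    { toFun := fun x => ⟨ρ.levelAction (𝔪 ^ n) σ₀ x.1 - x.1, ttp_gen_mem I σ₀ hσ₀ x.1⟩
      map_zero' := by
        apply Subtype.ext
        simp
      map_add' := fun x y => by
        apply Subtype.ext
        simp only [AddSubgroup.coe_add, map_add]
        abel }
  have hDinj : Function.Injective D := by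
    rw [injective_iff_map_eq_zero]
    intro x hx
    obtain ⟨v, hv⟩ := Submodule.Quotient.mk_surjective _ x.1
    have h1 : ρ.ρ σ₀ v - v ∈ (𝔪 ^ n) • (⊤ : Submodule T ρ.V) := by
      rw [← Submodule.Quotient.mk_eq_zero, Submodule.Quotient.mk_sub, ← ff32_levelAction_mk, hv]
      exact congrArg Subtype.val hx
    have h2 : v ∈ (𝔪 ^ n) • (⊤ : Submodule T ρ.V) := by
      refine ttpl_inj hKR L' hb σ₀ u hu hc n 0 (by omega) v ?_ ?_ h1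
      · rw [pow_zero, Ideal.one_eq_top, Submodule.top_smul]
        exact Submodule.mem_sup_left Submodule.mem_top
      · rw [hv]; exact x.2
    apply Subtype.ext
    rw [← hv, (Submodule.Quotient.mk_eq_zero _).mpr h2]
    rfl
  have hDsurj : Function.Surjective D := Finite.surjective_of_injective hDinj
  -- iterate
  have hiter : ∀ (k : ℕ) (x : ↥Xm), ∃ v' : ρ.V,
      (x.1 : ρ.V ⧸ ((𝔪 ^ n) • (⊤ : Submodule T ρ.V))) =
        Submodule.Quotient.mk (((ρ.ρ σ₀ - 1) ^ k) v') := by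
    intro k
    induction k with
    | zero =>
      intro x
      obtain ⟨v, hv⟩ := Submodule.Quotient.mk_surjective _ x.1
      exact ⟨v, by rw [pow_zero, Module.End.one_apply, hv]⟩
    | succ k ih =>
      intro x
      obtain ⟨y, rfl⟩ := hDsurj x
      obtain ⟨v', hv'⟩ := ih y
      refine ⟨v', ?_⟩
      show ρ.levelAction (𝔪 ^ n) σ₀ y.1 - y.1 = _
      rw [hv', ff32_levelAction_mk, ← Submodule.Quotient.mk_sub, pow_succ', Module.End.mul_apply,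
        LinearMap.sub_apply, Module.End.one_apply]
  obtain ⟨v', hv'⟩ := hiter k ⟨_, ttp_gen_mem I σ hσ (Submodule.Quotient.mk v)⟩
  refine ⟨v', ?_⟩
  have hv'' : ρ.levelAction (𝔪 ^ n) σ (Submodule.Quotient.mk v) - Submodule.Quotient.mk v =
      Submodule.Quotient.mk (((ρ.ρ σ₀ - 1) ^ k) v') := hv'
  rw [ff32_levelAction_mk, ← Submodule.Quotient.mk_sub] at hv''
  rw [← Submodule.Quotient.mk_eq_zero, Submodule.Quotient.mk_sub, hv'', sub_self]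

end Main

end Fermat.Agent.TT
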