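import Mathlib

/-!
# PROGRAM TT (S33), part P0 (helper2): the Hensel splitting of `ρ(σ₀)`

`V` free of rank two over a complete local noetherian ring `T`, `A ∈ End V` with matrix
`(a b'; c d')` in a basis `b`, `c ∈ 𝔪`, `d' - 1 ∈ 𝔪`, `a - 1` a unit.  Then `A` has an eigenvalue
`β ≡ 1` (Hensel), the vector `w := (a - β) b₀ + c b₁` is an eigenvector for `α := a + d' - β`
(`α - 1` a unit), extends to a basis, and the functional `ψ := (a - β) b₁^* - c b₀^*` satisfies
`ψ ∘ A = β ψ` and `ker ψ = T w`.  Consequently an element `z` which for every `n` is of the form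
`(A - 1)^n v' + 𝔪^n V` lies in `T w`.
-/

set_option autoImplicit false

noncomputable section

namespace Fermat.Agent.TT

open IsLocalRing Polynomial

section Split

variable {T : Type} [CommRing T] [IsLocalRing T]

theorem ttps_unit_add {x y : T} (hx : IsUnit x) (hy : y ∈ maximalIdeal T) : IsUnit (x + y) := by
  by_contra h
  have h1 : x + y ∈ maximalIdeal T := (mem_maximalIdeal _).mpr h
  have h2 : x ∈ maximalIdeal T := by
    have := Ideal.sub_mem _ h1 hy
    rwa [add_sub_cancel_right] at this
  exact (mem_maximalIdeal _).mp h2 hx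

/-- Hensel: a root `β ≡ 1` of the characteristic polynomial. -/
theorem ttps_hensel [IsAdicComplete (maximalIdeal T) T] (a b' c d' : T)
    (hc : c ∈ maximalIdeal T) (hd : d' - 1 ∈ maximalIdeal T) (ha : IsUnit (a - 1)) :
    ∃ β : T, (β - a) * (β - d') = b' * c ∧ β - 1 ∈ maximalIdeal T := by
  haveI : HenselianRing T (maximalIdeal T) := IsAdicComplete.henselianRing T _
  set f : T[X] := (X - C a) * (X - C d') - C (b' * c) with hf
  have hmon0 : ((X - C a) * (X - C d') : T[X]).Monic := (monic_X_sub_C a).mul (monic_X_sub_C d')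
  have hmon : f.Monic := by
    refine Monic.sub_of_left hmon0 ?_
    rw [(monic_X_sub_C d').degree_mul, degree_X_sub_C, degree_X_sub_C]
    exact lt_of_le_of_lt degree_C_le (by norm_num)
  have hev : f.eval 1 = (1 - a) * (1 - d') - b' * c := by
    simp [hf]
  have hder : f.derivative.eval 1 = (1 - d') + (1 - a) := by
    simp [hf, derivative_mul]
  have h1 : f.eval 1 ∈ maximalIdeal T := by
    rw [hev]
    refine Ideal.sub_mem _ (Ideal.mul_mem_left _ _ ?_) (Ideal.mul_mem_left _ _ hc)
    have := Ideal.neg_mem_iff _ |>.mpr hd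
    rwa [neg_sub] at this
  have h2 : IsUnit (f.derivative.eval 1) := by
    rw [hder]
    have hu : IsUnit (1 - a) := by
      have := ha.neg
      rwa [neg_sub] at this
    have hm : (1 - d') ∈ maximalIdeal T := by
      have := Ideal.neg_mem_iff _ |>.mpr hd
      rwa [neg_sub] at this
    rw [add_comm]
    exact ttps_unit_add hu hm
  obtain ⟨β, hβ, hβ1⟩ := HenselianRing.is_henselian f hmon 1 h1 (h2.map _)
  refine ⟨β, ?_, hβ1⟩
  have : f.eval β = 0 := hβ
  rw [hf] at this
  simp only [eval_sub, eval_mul, eval_X, eval_C] at this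
  exact sub_eq_zero.mp this

variable [IsNoetherianRing T] [IsAdicComplete (maximalIdeal T) T]
  {V : Type} [AddCommGroup V] [Module T V]

/-- a linear functional maps `𝔞 V` into `𝔞`. -/
theorem ttps_functional_mem (ψ : V →ₗ[T] T) (𝔞 : Ideal T) {z : V}
    (hz : z ∈ 𝔞 • (⊤ : Submodule T V)) : ψ z ∈ 𝔞 := by
  refine Submodule.smul_induction_on hz ?_ ?_
  · intro r hr v _
    rw [map_smul, smul_eq_mul]
    exact Ideal.mul_mem_right _ _ hr
  · intro x y hx hy
    rw [map_add]
    exact Ideal.add_mem _ hx hy

/-- **the splitting**. -/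
theorem ttps_main (b : Module.Basis (Fin 2) T V) (A : Module.End T V)
    (hc : b.repr (A (b 0)) 1 ∈ maximalIdeal T) (hd : b.repr (A (b 1)) 1 - 1 ∈ maximalIdeal T)
    (ha : IsUnit (b.repr (A (b 0)) 0 - 1)) :
    ∃ (w : V) (ψ : V →ₗ[T] T) (α β : T), β - 1 ∈ maximalIdeal T ∧ IsUnit (α - 1) ∧
      A w = α • w ∧ (∀ v, ψ (A v) = β * ψ v) ∧ (∀ v, ψ v = 0 → v ∈ Submodule.span T {w}) ∧
      ∃ B : Module.Basis (Fin 2) T V, B 0 = w := by
  classical
  set a := b.repr (A (b 0)) 0 with ha'
  set c := b.repr (A (b 0)) 1 with hc'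
  set b' := b.repr (A (b 1)) 0 with hb'
  set d' := b.repr (A (b 1)) 1 with hd'
  obtain ⟨β, hroot, hβ⟩ := ttps_hensel a b' c d' hc hd ha
  have h0 : A (b 0) = a • b 0 + c • b 1 := by
    conv_lhs => rw [← b.sum_repr (A (b 0))]
    rw [Fin.sum_univ_two]
  have h1 : A (b 1) = b' • b 0 + d' • b 1 := by
    conv_lhs => rw [← b.sum_repr (A (b 1))]
    rw [Fin.sum_univ_two]
  have hu : IsUnit (a - β) := by
    have : a - β = (a - 1) + (-(β - 1)) := by ring
    rw [this]
    exact ttps_unit_add ha ((Ideal.neg_mem_iff _).mpr hβ)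
  obtain ⟨ui, hui⟩ := hu.exists_left_inv
  set w : V := (a - β) • b 0 + c • b 1 with hw
  set α : T := a + d' - β with hα
  set ψ : V →ₗ[T] T := (a - β) • b.coord 1 - c • b.coord 0 with hψ
  have hψ0 : ψ (b 0) = -c := by
    simp [hψ]
  have hψ1 : ψ (b 1) = a - β := by
    simp [hψ]
  refine ⟨w, ψ, α, β, hβ, ?_, ?_, ?_, ?_, ?_⟩
  · have : α - 1 = (a - 1) + ((d' - 1) - (β - 1)) := by rw [hα]; ring
    rw [this]
    exact ttps_unit_add ha (Ideal.sub_mem _ hd hβ)
  · have e1 : (a - β) * a + c * b' = α * (a - β) := by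
      rw [hα]; linear_combination (-1 : T) * hroot
    have e2 : (a - β) * c + c * d' = α * c := by
      rw [hα]; ring
    calc A w = (a - β) • A (b 0) + c • A (b 1) := by rw [hw, map_add, map_smul, map_smul]
      _ = ((a - β) * a + c * b') • b 0 + ((a - β) * c + c * d') • b 1 := by
          rw [h0, h1]; module
      _ = (α * (a - β)) • b 0 + (α * c) • b 1 := by rw [e1, e2]
      _ = α • w := by rw [hw]; module
  · have hcomp : ψ.comp A = β • ψ := by
      refine b.ext fun i => ?_
      fin_cases i
      · show ψ (A (b 0)) = β * ψ (b 0)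
        rw [h0, map_add, map_smul, map_smul, hψ0, hψ1, smul_eq_mul, smul_eq_mul]
        ring
      · show ψ (A (b 1)) = β * ψ (b 1)
        rw [h1, map_add, map_smul, map_smul, hψ0, hψ1, smul_eq_mul, smul_eq_mul]
        linear_combination hroot
    intro v
    have := congrArg (fun g => g v) hcomp
    simpa using this
  · intro v hv
    rw [Submodule.mem_span_singleton]
    set x := b.repr v 0 with hx
    set y := b.repr v 1 with hy
    have hv' : v = x • b 0 + y • b 1 := by
      conv_lhs => rw [← b.sum_repr v]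
      rw [Fin.sum_univ_two]
    have hxy : (a - β) * y - c * x = 0 := by
      rw [hv', map_add, map_smul, map_smul, hψ0, hψ1, smul_eq_mul, smul_eq_mul] at hv
      linear_combination hv
    refine ⟨ui * x, ?_⟩
    have e1 : ui * x * (a - β) = x := by
      rw [mul_assoc, mul_comm x, ← mul_assoc, hui, one_mul]
    have e2 : ui * x * c = y := by
      have : ui * x * c = ui * ((a - β) * y) := by linear_combination (-ui) * hxy
      rw [this, ← mul_assoc, hui, one_mul]
    calc (ui * x) • w = (ui * x * (a - β)) • b 0 + (ui * x * c) • b 1 := by rw [hw]; module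
      _ = v := by rw [e1, e2, ← hv']
  · have hli : LinearIndependent T ![w, b 1] := by
      rw [LinearIndependent.pair_iff]
      intro s t hst
      have hs0 := congrArg (fun z => b.repr z 0) hst
      have hs1 := congrArg (fun z => b.repr z 1) hst
      simp only [hw, map_add, map_smul, Finsupp.coe_add, Finsupp.coe_smul, Pi.add_apply,
        Pi.smul_apply, Module.Basis.repr_self, smul_eq_mul, map_zero, Finsupp.coe_zero,
        Pi.zero_apply] at hs0 hs1
      have hs : s = 0 := by
        have : s * (a - β) = 0 := by simpa using hs0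
        calc s = s * (ui * (a - β)) := by rw [hui, mul_one]
          _ = ui * (s * (a - β)) := by ring
          _ = 0 := by rw [this, mul_zero]
      refine ⟨hs, ?_⟩
      have : s * c + t = 0 := by simpa using hs1
      rw [hs, zero_mul, zero_add] at this
      exact this
    have hsp : ⊤ ≤ Submodule.span T (Set.range ![w, b 1]) := by
      have hw1 : w ∈ Submodule.span T (Set.range ![w, b 1]) :=
        Submodule.subset_span ⟨0, rfl⟩
      have hb1 : b 1 ∈ Submodule.span T (Set.range ![w, b 1]) :=
        Submodule.subset_span ⟨1, rfl⟩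
      have hb0 : b 0 ∈ Submodule.span T (Set.range ![w, b 1]) := by
        have : b 0 = ui • w - (ui * c) • b 1 := by
          rw [hw, smul_add, smul_smul, smul_smul, hui, one_smul]
          abel
        rw [this]
        exact Submodule.sub_mem _ (Submodule.smul_mem _ _ hw1) (Submodule.smul_mem _ _ hb1)
      rw [← b.span_eq]
      refine Submodule.span_le.mpr ?_
      rintro _ ⟨i, rfl⟩
      fin_cases i
      · exact hb0
      · exact hb1
    refine ⟨Module.Basis.mk hli hsp, ?_⟩
    rw [Module.Basis.mk_apply]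
    rfl

/-- **the limit argument**: an element which is, for every `n`, of the form
`(A - 1)^n v' + 𝔪^n V` lies in the kernel of `ψ`. -/
theorem ttps_limit (A : Module.End T V) (ψ : V →ₗ[T] T) (β : T) (hβ : β - 1 ∈ maximalIdeal T)
    (hψ : ∀ v, ψ (A v) = β * ψ v) (z : V)
    (hz : ∀ n : ℕ, ∃ v' : V, z - ((A - 1) ^ n) v' ∈ (maximalIdeal T ^ n) • (⊤ : Submodule T V)) :
    ψ z = 0 := by
  have hpow : ∀ (n : ℕ) (v : V), ψ (((A - 1) ^ n) v) = (β - 1) ^ n * ψ v := by
    intro n
    induction n with
    | zero => intro v; simp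
    | succ n ih =>
      intro v
      rw [pow_succ, Module.End.mul_apply, ih, LinearMap.sub_apply, Module.End.one_apply, map_sub,
        hψ, pow_succ]
      ring
  have hmem : ∀ n : ℕ, ψ z ∈ maximalIdeal T ^ n := by
    intro n
    obtain ⟨v', hv'⟩ := hz n
    have h1 := ttps_functional_mem ψ _ hv'
    rw [map_sub, hpow] at h1
    have h2 : (β - 1) ^ n * ψ v' ∈ maximalIdeal T ^ n :=
      Ideal.mul_mem_right _ _ (Ideal.pow_mem_pow hβ n)
    have := Ideal.add_mem _ h1 h2
    rwa [sub_add_cancel] at this
  have hbot : ⨅ i, maximalIdeal T ^ i = ⊥ :=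
    Ideal.iInf_pow_eq_bot_of_isLocalRing _ (Ideal.IsPrime.ne_top inferInstance)
  have : ψ z ∈ ⨅ i, maximalIdeal T ^ i := by
    rw [Ideal.mem_iInf]
    exact hmem
  rw [hbot] at this
  exact this

end Split

end Fermat.Agent.TT
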