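import Mathlib
import Fermat.Agent.FF.S32.Spec
import Fermat.Agent.G.Unr.Main
import Fermat.Agent.G.Unr.HeckeCongr
import Fermat.Agent.S13.MinkTwo
import Fermat.Agent.TT.P0.Split

/-!
# PROGRAM TT (S33), part P0 (helper2): the Galois leaves

* `ttpg_conj_mem` : the inertia group is normal in the decomposition group;
* `ttpg_det` (G1) : `det ρ(σ) ≡ c mod 𝔪` with `σ ζ = ζ^c` (weak Chebotarev + `charpoly_frob`);
* `ttpg_exists_inertia` (G2) : some element of the inertia group at `p` moves `ζ_p` (`p` odd;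
  Minkowski);
* `ttpg_unit` : an element `σ₀` of the inertia group at `p` with `det ρ(σ₀) - 1` a unit.
-/

set_option autoImplicit false
set_option linter.unusedSectionVars false
set_option linter.unusedVariables false
set_option linter.style.haveILetI false

noncomputable section

namespace Fermat.Agent.TT

open Fermat.Agent.FF Fermat.Agent.G Fermat.Agent.S13 Polynomial IsLocalRing

local notation "Qb" => AlgebraicClosure ℚ
local notation "GQ" => (AlgebraicClosure ℚ ≃ₐ[ℚ] AlgebraicClosure ℚ)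

/-- the inertia group is normal in the decomposition group. -/
theorem ttpg_conj_mem (P : ValuationSubring Qb) (τ σ : GQ) (hτ : τ ∈ P.decompositionSubgroup ℚ)
    (hσ : σ ∈ P.inertiaSubgroupIn ℚ) : τ * σ * τ⁻¹ ∈ P.inertiaSubgroupIn ℚ := by
  rw [ValuationSubring.inertiaSubgroupIn, Subgroup.mem_map] at hσ ⊢
  obtain ⟨s, hs, hs'⟩ := hσ
  have hn : (P.inertiaSubgroup ℚ).Normal := by
    unfold ValuationSubring.inertiaSubgroup
    exact MonoidHom.normal_ker _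
  refine ⟨(⟨τ, hτ⟩ : ↥(P.decompositionSubgroup ℚ)) * s * (⟨τ, hτ⟩ : ↥(P.decompositionSubgroup ℚ))⁻¹,
    hn.conj_mem s hs _, ?_⟩
  rw [← hs']
  simp

/-- the inertia group lies in the decomposition group. -/
theorem ttpg_inertia_le (P : ValuationSubring Qb) (σ : GQ) (hσ : σ ∈ P.inertiaSubgroupIn ℚ) :
    σ ∈ P.decompositionSubgroup ℚ := by
  rw [ValuationSubring.inertiaSubgroupIn, Subgroup.mem_map] at hσ
  obtain ⟨s, -, hs'⟩ := hσ
  rw [← hs']
  exact s.2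

/-- an integer prime to `p` is a unit in a local ring whose maximal ideal contains `p`. -/
theorem ttpg_isUnit_intCast {T : Type*} [CommRing T] [IsLocalRing T] {p : ℕ} (hp : p.Prime)
    (hpT : (p : T) ∈ maximalIdeal T) (z : ℤ) (hz : ¬ (p : ℤ) ∣ z) : IsUnit (z : T) := by
  have hcop : (z.natAbs).Coprime p := by
    rw [Nat.coprime_comm, hp.coprime_iff_not_dvd]
    intro h
    exact hz (Int.natCast_dvd.mpr h)
  have h1 : IsUnit ((z.natAbs : ℕ) : T) := gunm_isUnit_natCast hpT hcop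
  rcases Int.natAbs_eq z with h | h
  · rw [h, Int.cast_natCast]; exact h1
  · rw [h, Int.cast_neg, Int.cast_natCast]; exact h1.neg

section Datum

variable {p : ℕ} {N : ℕ} [NeZero N] {S : Finset ℕ}
  {𝒪 : Type} [CommRing 𝒪] [IsDomain 𝒪] [IsDiscreteValuationRing 𝒪]
  [IsAdicComplete (IsLocalRing.maximalIdeal 𝒪) 𝒪]
  {θ : CuspForm.heckeAlgebra N 2 (↑S : Set ℕ) →+* IsLocalRing.ResidueField 𝒪}
  {T : Type} [CommRing T] [IsLocalRing T] [IsNoetherianRing T]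
  [IsAdicComplete (IsLocalRing.maximalIdeal T) T] [Algebra 𝒪 T] [IsLocalHom (algebraMap 𝒪 T)]
  [Module.Finite 𝒪 T] [Module.Free 𝒪 T]

/-- **(G1)** the determinant is the cyclotomic character modulo `𝔪`. -/
theorem ttpg_det (hp : p.Prime) (hpS : p ∈ S)
    (hNS : ∀ q : ℕ, q.Prime → q ∣ N → q ∈ S)
    (H : CuspForm.HeckeGaloisRepDatum N (↑S : Set ℕ) 𝒪 θ T) (ζ : Qb) (hζ : ζ ^ p = 1) (σ : GQ) :
    ∃ c : ℕ, LinearMap.det (H.ρ.ρ σ) - (c : T) ∈ maximalIdeal T ∧ σ ζ = ζ ^ c := by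
  classical
  have hcl : IsAlgClosure ℚ Qb := AlgebraicClosure.instIsAlgClosure ℚ
  have halg : Algebra.IsAlgebraic ℚ Qb := AlgebraicClosure.isAlgebraic ℚ
  have hnormQb : Normal ℚ Qb := IsAlgClosure.normal ℚ Qb
  obtain ⟨L, hLfd, hL⟩ := H.ρ.residual.factorsThroughFiniteLevel
  haveI : FiniteDimensional ℚ (IntermediateField.adjoin ℚ {ζ}) :=
    IntermediateField.adjoin.finiteDimensional (Algebra.IsIntegral.isIntegral ζ)
  haveI : FiniteDimensional ℚ L := hLfd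
  have hE₀fin : FiniteDimensional ℚ (IntermediateField.adjoin ℚ {ζ} ⊔ L :
      IntermediateField ℚ Qb) := IntermediateField.finiteDimensional_sup _ L
  set E : IntermediateField ℚ Qb := IntermediateField.normalClosure ℚ
    (IntermediateField.adjoin ℚ {ζ} ⊔ L : IntermediateField ℚ Qb) Qb with hEdef
  have hEfd : FiniteDimensional ℚ E := normalClosure.is_finiteDimensional ℚ _ Qb
  have hEn : Normal ℚ E := normalClosure.normal ℚ _ Qb
  have hE₀le : (IntermediateField.adjoin ℚ {ζ} ⊔ L : IntermediateField ℚ Qb) ≤ E :=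
    IntermediateField.le_normalClosure _
  have hζE : ζ ∈ E := hE₀le ((le_sup_left : _ ≤ IntermediateField.adjoin ℚ {ζ} ⊔ L)
      (IntermediateField.mem_adjoin_simple_self ℚ ζ))
  have hLE : L ≤ E := le_trans le_sup_right hE₀le
  have hfixζ : ∀ u ∈ E.fixingSubgroup, u ζ = ζ := fun u hu =>
    (IntermediateField.mem_fixingSubgroup_iff E u).mp hu ζ hζE
  have hfixL : ∀ u : GQ, u ∈ E.fixingSubgroup → ∀ x ∈ L, u x = x := by
    intro u hu x hx
    rw [IntermediateField.mem_fixingSubgroup_iff] at hu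
    exact hu x (hLE hx)
  obtain ⟨ℓ, hℓ, hℓS, A, hA, φ, hφ, b, hb⟩ := gunm_exists_frob E hEn σ S
  have hℓN : ¬ ℓ ∣ N := fun hd => hℓS (hNS ℓ hℓ hd)
  have hℓp : ℓ ≠ p := fun e => hℓS (e ▸ hpS)
  have hℓS' : ℓ ∉ (↑S : Set ℕ) := fun hh => hℓS (Finset.mem_coe.mp hh)
  have hℓp' : ¬ ℓ ∣ p := fun hd => hℓp ((Nat.prime_dvd_prime_iff_eq hℓ hp).mp hd)
  obtain ⟨u, hudef⟩ : ∃ u : GQ, u = (φ ^ b)⁻¹ * σ := ⟨_, rfl⟩
  rw [← hudef] at hb
  have hσ : σ = φ ^ b * u := by rw [hudef]; group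
  refine ⟨ℓ ^ b, ?_, ?_⟩
  · -- the determinant
    have hdetφ : LinearMap.det (H.ρ.ρ φ) = (ℓ : T) := by
      rw [LinearMap.det_eq_sign_charpoly_coeff, H.ρ.finrank_eq,
        H.charpoly_frob ℓ hℓ hℓN hℓS' A hA φ hφ]
      simp
    have hdetu : LinearMap.det (H.ρ.ρ u) - 1 ∈ maximalIdeal T := by
      have h1 : H.ρ.residual.ρ u = 1 := hL u (hfixL u hb)
      have h2 : (H.ρ.ρ u).baseChange (ResidueField T) = 1 := h1
      have h3 := LinearMap.det_baseChange (H.ρ.ρ u) (A := ResidueField T)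
      rw [h2, map_one] at h3
      have h4 : residue T (LinearMap.det (H.ρ.ρ u)) = 1 := h3.symm
      rw [← residue_eq_zero_iff, map_sub, h4, map_one, sub_self]
    have h5 : LinearMap.det (H.ρ.ρ σ) = (ℓ : T) ^ b * LinearMap.det (H.ρ.ρ u) := by
      rw [hσ, map_mul, map_mul, map_pow, map_pow, hdetφ]
    have h6 : LinearMap.det (H.ρ.ρ σ) - ((ℓ ^ b : ℕ) : T)
        = (ℓ : T) ^ b * (LinearMap.det (H.ρ.ρ u) - 1) := by
      rw [h5]; push_cast; ring
    rw [h6]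
    exact Ideal.mul_mem_left _ _ hdetu
  · rw [hσ, AlgEquiv.mul_apply, hfixζ u hb]
    exact gunh_frob_pow hℓ hℓp' A hA φ hφ ζ hζ b

end Datum

/-- **(G2)** some element of the inertia group at `p` moves `ζ_p` (`p` odd). -/
theorem ttpg_exists_inertia {p : ℕ} (hp : p.Prime) (hp2 : p ≠ 2) (ζ : Qb)
    (hζ : IsPrimitiveRoot ζ p) (P : ValuationSubring Qb) (hP : P.LiesOverPrime p) :
    ∃ σ₀ ∈ P.inertiaSubgroupIn ℚ, σ₀ ζ ≠ ζ := by
  classical
  by_contra hcon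
  push Not at hcon
  haveI : NeZero p := ⟨hp.ne_zero⟩
  have halg : Algebra.IsAlgebraic ℚ Qb := AlgebraicClosure.isAlgebraic ℚ
  have hcl : IsAlgClosure ℚ Qb := AlgebraicClosure.instIsAlgClosure ℚ
  have hnormQb : Normal ℚ Qb := IsAlgClosure.normal ℚ Qb
  have hgal : IsGalois ℚ Qb := inferInstance
  -- the stabiliser of `ζ`
  set Hs : Subgroup GQ := MulAction.stabilizer GQ ζ with hHs
  have hmem : ∀ g : GQ, g ∈ Hs ↔ g ζ = ζ := fun g => by
    rw [hHs, MulAction.mem_stabilizer_iff]; rfl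
  have hpowfix : ∀ g : GQ, g ∈ Hs → ∀ i : ℕ, g (ζ ^ i) = ζ ^ i := fun g hg i => by
    rw [map_pow, (hmem g).mp hg]
  haveI hnorm : Hs.Normal := by
    refine ⟨fun σ hσ g => ?_⟩
    rw [hmem]
    have h1 : (g⁻¹ ζ) ^ p = 1 := by rw [← map_pow, hζ.pow_eq_one, map_one]
    obtain ⟨i, -, hi⟩ := hζ.eq_pow_of_pow_eq_one h1
    show g (σ (g⁻¹ ζ)) = ζ
    rw [← hi, hpowfix σ hσ i, hi]
    show (g * g⁻¹) ζ = ζ
    rw [mul_inv_cancel]; rfl
  haveI : FiniteDimensional ℚ (IntermediateField.adjoin ℚ {ζ}) :=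
    IntermediateField.adjoin.finiteDimensional (Algebra.IsIntegral.isIntegral ζ)
  have hopen : ∃ F : IntermediateField ℚ Qb, FiniteDimensional ℚ F ∧ F.fixingSubgroup ≤ Hs := by
    refine ⟨IntermediateField.adjoin ℚ {ζ}, inferInstance, fun g hg => ?_⟩
    rw [hmem]
    exact (IntermediateField.mem_fixingSubgroup_iff _ g).mp hg ζ
      (IntermediateField.mem_adjoin_simple_self ℚ ζ)
  have hPle : P.inertiaSubgroupIn ℚ ≤ Hs := fun σ hσ => (hmem σ).mpr (hcon σ hσ)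
  have htop : Hs = ⊤ := by
    refine eq_top_of_inertia_le Hs hopen (fun q A hq hA => ?_)
    by_cases hqp : q = p
    · subst hqp
      exact mink_inertia_le_of_conj q hq Hs P A hP hA hPle
    · intro τ hτ
      rw [hmem]
      have hqp' : ¬ q ∣ p := fun hd => hqp ((Nat.prime_dvd_prime_iff_eq hq hp).mp hd)
      exact gun_cyc_inertia hq hqp' A hA τ hτ ζ hζ.pow_eq_one
  -- `ζ` is rational
  have hfix : ∀ g : GQ, g ζ = ζ := fun g => (hmem g).mp (htop ▸ Subgroup.mem_top g)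
  obtain ⟨x, hx⟩ := (InfiniteGalois.mem_range_algebraMap_iff_fixed (k := ℚ) (K := Qb) ζ).mpr hfix
  have hxp : x ^ p = 1 := by
    apply (algebraMap ℚ Qb).injective
    rw [map_pow, hx, hζ.pow_eq_one, map_one]
  have hodd : Odd p := hp.odd_of_ne_two hp2
  have hx1 : x = 1 := by
    have := hodd.strictMono_pow (R := ℚ)
    exact this.injective (by rw [hxp, one_pow])
  have hζ1 : ζ = 1 := by rw [← hx, hx1, map_one]
  exact hp.one_lt.ne' (hζ.unique (hζ1 ▸ IsPrimitiveRoot.one))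

section Datum2

variable {p : ℕ} {N : ℕ} [NeZero N] {S : Finset ℕ}
  {𝒪 : Type} [CommRing 𝒪] [IsDomain 𝒪] [IsDiscreteValuationRing 𝒪]
  [IsAdicComplete (IsLocalRing.maximalIdeal 𝒪) 𝒪]
  {θ : CuspForm.heckeAlgebra N 2 (↑S : Set ℕ) →+* IsLocalRing.ResidueField 𝒪}
  {T : Type} [CommRing T] [IsLocalRing T] [IsNoetherianRing T]
  [IsAdicComplete (IsLocalRing.maximalIdeal T) T] [Algebra 𝒪 T] [IsLocalHom (algebraMap 𝒪 T)]
  [Module.Finite 𝒪 T] [Module.Free 𝒪 T]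

/-- an element of the inertia group at `p` whose determinant is not `1` residually. -/
theorem ttpg_unit (hp : p.Prime) (hp2 : p ≠ 2) (hp𝒪 : (p : 𝒪) ∈ IsLocalRing.maximalIdeal 𝒪)
    (hpS : p ∈ S) (hNS : ∀ q : ℕ, q.Prime → q ∣ N → q ∈ S)
    (H : CuspForm.HeckeGaloisRepDatum N (↑S : Set ℕ) 𝒪 θ T)
    (P : ValuationSubring Qb) (hP : P.LiesOverPrime p) :
    ∃ σ₀ ∈ P.inertiaSubgroupIn ℚ, IsUnit (LinearMap.det (H.ρ.ρ σ₀) - 1) := by
  haveI : NeZero p := ⟨hp.ne_zero⟩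
  obtain ⟨ζ, hζ⟩ := HasEnoughRootsOfUnity.exists_primitiveRoot Qb p
  obtain ⟨σ₀, hσ₀, hmove⟩ := ttpg_exists_inertia hp hp2 ζ hζ P hP
  obtain ⟨c, hc, hcζ⟩ := ttpg_det hp hpS hNS H ζ hζ.pow_eq_one σ₀
  refine ⟨σ₀, hσ₀, ?_⟩
  have hpT : (p : T) ∈ maximalIdeal T := gunm_p_mem hp𝒪
  have hndvd : ¬ (p : ℤ) ∣ ((c : ℤ) - 1) := by
    rintro ⟨k, hk⟩
    apply hmove
    have hζ0 : ζ ≠ 0 := hζ.ne_zero hp.ne_zero
    have h1 : (c : ℤ) = 1 + p * k := by linarith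
    have h2 : ζ ^ (c : ℤ) = ζ := by
      rw [h1, zpow_add₀ hζ0, zpow_one, zpow_mul, zpow_natCast, hζ.pow_eq_one, one_zpow, mul_one]
    rw [hcζ, ← zpow_natCast]
    exact h2
  have hu : IsUnit (((c : ℤ) - 1 : ℤ) : T) := ttpg_isUnit_intCast hp hpT _ hndvd
  have : LinearMap.det (H.ρ.ρ σ₀) - 1
      = (((c : ℤ) - 1 : ℤ) : T) + (LinearMap.det (H.ρ.ρ σ₀) - (c : T)) := by
    push_cast; ring
  rw [this]
  exact ttps_unit_add hu hc

end Datum2

end Fermat.Agent.TT
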