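import Mathlib
import Fermat.Prelude.Def_GaloisRep_LocalConditions

/-!
# PROGRAM TT (S33), part P0 (helper2): the adapted basis

From the residual ordinary line `L̄ = k b̄₀ ⊂ k ⊗ V` we lift the basis `b̄` to a basis `b` of `V`
(Nakayama) and read off, in coordinates: the `b₁`-coordinate of `ρ(σ) b₀` (`σ` in the
decomposition group) and of `ρ(σ) v - v` (`σ` in the inertia group) lies in `𝔪`.
-/

set_option autoImplicit false

noncomputable section

namespace Fermat.Agent.TT

open IsLocalRing TensorProduct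

section Res

variable {T : Type} [CommRing T] [IsLocalRing T] [IsNoetherianRing T]

local notation "FfGal'" => (AlgebraicClosure ℚ ≃ₐ[ℚ] AlgebraicClosure ℚ)

/-- **the adapted basis**, abstract form. -/
theorem ttpr_basis_core {V : Type} [AddCommGroup V] [Module T V] [Module.Free T V]
    [Module.Finite T V] {G : Type} (r : G → Module.End T V) (D I : Set G)
    (L : Submodule (ResidueField T) (ResidueField T ⊗[T] V))
    (bb : Module.Basis (Fin 2) (ResidueField T) (ResidueField T ⊗[T] V))
    (hL : L = (ResidueField T) ∙ bb 0)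
    (hD : ∀ σ ∈ D, ∀ v ∈ L, (r σ).baseChange (ResidueField T) v ∈ L)
    (hI : ∀ σ ∈ I, ∀ v : ResidueField T ⊗[T] V, (r σ).baseChange (ResidueField T) v - v ∈ L) :
    ∃ b : Module.Basis (Fin 2) T V,
      (∀ σ ∈ D, b.repr (r σ (b 0)) 1 ∈ maximalIdeal T) ∧
      (∀ σ ∈ I, ∀ v : V, b.repr (r σ v - v) 1 ∈ maximalIdeal T) := by
  classical
  -- the reduction map
  set ι : V →ₗ[T] ResidueField T ⊗[T] V := TensorProduct.mk T (ResidueField T) V 1 with hι
  have hsurj : Function.Surjective ι := by
    rw [← LinearMap.range_eq_top, ← Submodule.map_top]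
    exact IsLocalRing.map_tensorProduct_mk_eq_top.mpr rfl
  choose v hv using fun i => hsurj (bb i)
  have hcomp : (TensorProduct.mk T (ResidueField T) V 1 ∘ v) = bb := funext hv
  have hli : LinearIndependent (ResidueField T) (TensorProduct.mk T (ResidueField T) V 1 ∘ v) := by
    rw [hcomp]; exact bb.linearIndependent
  have hsp : Submodule.span (ResidueField T)
      (Set.range (TensorProduct.mk T (ResidueField T) V 1 ∘ v)) = ⊤ := by
    rw [hcomp]; exact bb.span_eq
  haveI : Module.FinitePresentation T V := Module.finitePresentation_of_finite T V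
  obtain ⟨b, hb⟩ := Module.exists_basis_of_basis_baseChange v hli hsp
    (Module.Flat.rTensor_preserves_injective_linearMap (maximalIdeal T).subtype
      Subtype.val_injective)
  have hιb : ∀ i, ι (b i) = bb i := fun i => by rw [hb, hv]
  -- coordinates of the reduction
  have hrepr : ∀ (x : V) (i : Fin 2), bb.repr (ι x) i = residue T (b.repr x i) := by
    intro x i
    have hx : ι x = ∑ j, residue T (b.repr x j) • bb j := by
      conv_lhs => rw [← b.sum_repr x]
      rw [map_sum]
      refine Finset.sum_congr rfl fun j _ => ?_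
      rw [map_smul, hιb, ← algebraMap_smul (ResidueField T) (b.repr x j) (bb j)]
      rfl
    rw [hx, map_sum, Finsupp.coe_finsetSum, Finset.sum_apply]
    simp only [map_smul, Module.Basis.repr_self, Finsupp.smul_apply, Finsupp.single_apply,
      smul_eq_mul, mul_ite, mul_one, mul_zero]
    rw [Finset.sum_ite_eq' Finset.univ i]
    simp
  have hmem : ∀ x : V, ι x ∈ L → b.repr x 1 ∈ maximalIdeal T := by
    intro x hx
    rw [hL, Submodule.mem_span_singleton] at hx
    obtain ⟨c, hc⟩ := hx
    have h1 := hrepr x 1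
    rw [← hc, map_smul, Module.Basis.repr_self, Finsupp.smul_apply, Finsupp.single_apply] at h1
    rw [← residue_eq_zero_iff, ← h1]
    simp
  have hb0L : ι (b 0) ∈ L := by
    rw [hιb, hL]
    exact Submodule.mem_span_singleton_self _
  have hιr : ∀ (σ : G) (x : V), (r σ).baseChange (ResidueField T) (ι x) = ι (r σ x) := by
    intro σ x
    show (r σ).baseChange (ResidueField T) ((1 : ResidueField T) ⊗ₜ[T] x) = _
    rw [LinearMap.baseChange_tmul]
    rfl
  refine ⟨b, fun σ hσ => ?_, fun σ hσ x => ?_⟩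
  · refine hmem _ ?_
    have := hD σ hσ _ hb0L
    rwa [hιr] at this
  · refine hmem _ ?_
    have := hI σ hσ (ι x)
    rw [hιr] at this
    rw [map_sub]
    exact this

/-- **the adapted basis** from the residual ordinarity. -/
theorem ttpr_basis (ρ : GaloisRepAdic T) (D I : Subgroup FfGal')
    (hres : ∃ L : Submodule (ResidueField T) (GaloisRepAdic.ofResidualGaloisRep ρ.residual).V,
      (∃ b : Module.Basis (Fin 2) (ResidueField T)
        (GaloisRepAdic.ofResidualGaloisRep ρ.residual).V, L = (ResidueField T) ∙ b 0) ∧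
      (∀ σ ∈ D, ∀ v ∈ L, (GaloisRepAdic.ofResidualGaloisRep ρ.residual).ρ σ v ∈ L) ∧
      (∀ σ ∈ I, ∀ v : (GaloisRepAdic.ofResidualGaloisRep ρ.residual).V,
        (GaloisRepAdic.ofResidualGaloisRep ρ.residual).ρ σ v - v ∈ L)) :
    ∃ b : Module.Basis (Fin 2) T ρ.V,
      (∀ σ ∈ D, b.repr (ρ.ρ σ (b 0)) 1 ∈ maximalIdeal T) ∧
      (∀ σ ∈ I, ∀ v : ρ.V, b.repr (ρ.ρ σ v - v) 1 ∈ maximalIdeal T) := by
  obtain ⟨L, ⟨bb, hL⟩, hD, hI⟩ := hres
  exact ttpr_basis_core (fun σ => ρ.ρ σ) (D : Set FfGal') (I : Set FfGal') L bb hL hD hI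

end Res

end Fermat.Agent.TT
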