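import Mathlib
import Fermat.Agent.TT.P0.Spec
import Fermat.Agent.TT.P0.FinLevel
import Fermat.Agent.TT.P0.Split
import Fermat.Agent.TT.P0.Res
import Fermat.Agent.TT.P0.Gal
import Fermat.Agent.FF.S32.Top
import Fermat.Agent.FF.S32.Star
import Fermat.Agent.FF.S32.Hecke
import Fermat.Agent.FF.S32.Trace
import Fermat.Agent.FF.S32.Frob

/-!
# PROGRAM TT (S33), part P0 (helper2): the transfer, top assembly

`ttp_main : TtpGeoSpec N p → H.ρ.IsOrdinaryAt p` under the hypotheses of S33.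
-/

set_option autoImplicit false
set_option linter.unusedSectionVars false
set_option linter.unusedVariables false
set_option linter.style.haveILetI false

noncomputable section

namespace Fermat.Agent.TT

open CongruenceSubgroup ModularCurve Fermat.Agent.FF Fermat.Agent.G IsLocalRing

variable {p : ℕ} {N : ℕ} [NeZero N] {S : Finset ℕ}
  {𝒪 : Type} [CommRing 𝒪] [IsDomain 𝒪] [IsDiscreteValuationRing 𝒪]
  [IsAdicComplete (IsLocalRing.maximalIdeal 𝒪) 𝒪]
  {θ : CuspForm.heckeAlgebra N 2 (↑S : Set ℕ) →+* IsLocalRing.ResidueField 𝒪}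
  {T : Type} [CommRing T] [IsLocalRing T] [IsNoetherianRing T]
  [IsAdicComplete (IsLocalRing.maximalIdeal T) T] [Algebra 𝒪 T] [IsLocalHom (algebraMap 𝒪 T)]
  [Module.Finite 𝒪 T] [Module.Free 𝒪 T]

/-- `V/𝔪^n V` is finite. -/
theorem ttp_finite_level [Finite (IsLocalRing.ResidueField 𝒪)]
    (H : CuspForm.HeckeGaloisRepDatum N (↑S : Set ℕ) 𝒪 θ T) (n : ℕ) :
    Finite (H.ρ.V ⧸ ((maximalIdeal T ^ n) • (⊤ : Submodule T H.ρ.V))) := by
  haveI : Finite (T ⧸ maximalIdeal T) := ff32_finite_residue H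
  haveI : Finite (T ⧸ maximalIdeal T ^ n) :=
    Ideal.finite_quotient_pow (IsNoetherian.noetherian (maximalIdeal T)) n
  exact ff32_finite_quot H.ρ.V (maximalIdeal T ^ n)

/-- (KR) at the finite levels `V/𝔪^n V`, from (KR) for the `J₀(N)[p^m]` and (STAR). -/
theorem ttp_level_kr [Finite (IsLocalRing.ResidueField 𝒪)] (hp : p.Prime)
    (hp𝒪 : (p : 𝒪) ∈ IsLocalRing.maximalIdeal 𝒪) (hpS : p ∈ S)
    (hNS : ∀ q : ℕ, q.Prime → q ∣ N → q ∈ S)
    (H : CuspForm.HeckeGaloisRepDatum N (↑S : Set ℕ) 𝒪 θ T) (hgeo : TtpGeoSpec N p)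
    (P : ValuationSubring FfQb) (hP : P.LiesOverPrime p) (n : ℕ) :
    TtxKR (P.inertiaSubgroupIn ℚ) (H.ρ.V ⧸ ((maximalIdeal T ^ n) • (⊤ : Submodule T H.ρ.V)))
      (fun σ => H.ρ.levelAction (maximalIdeal T ^ n) σ) := by
  have hstar : Ff32StarSpec p H :=
    ff32_star hp hp𝒪 H (ff32h_lattice N (↑S : Set ℕ) p hp
      (fun ℓ _ hℓS h => hℓS (h ▸ Finset.mem_coe.mpr hpS)))
      (ff32f_main hp hp𝒪 hpS hNS H)
      (ff32t_trace H.ρ H.residual_absIrr) (ff32t_nac H.ρ H.residual_absIrr)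
  obtain ⟨m, hm⟩ := hstar n
  haveI : Finite (H.ρ.V ⧸ ((maximalIdeal T ^ n) • (⊤ : Submodule T H.ρ.V))) :=
    ttp_finite_level H n
  haveI : Fact p.Prime := ⟨hp⟩
  haveI : Finite ↥(Submodule.torsionBy ℤ (JZero N) ((p : ℤ) ^ m)) := fftp_finite N p m
  have hactY : FfAct ↥(Submodule.torsionBy ℤ (JZero N) ((p : ℤ) ^ m))
      (ffTorsAct N ((p : ℤ) ^ m)) := fftp_act N _
  have hann : ∀ a : FfGal →₀ ℤ,
      (∀ y : ↥(Submodule.torsionBy ℤ (JZero N) ((p : ℤ) ^ m)),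
        (a.sum fun g k => k • ffTorsAct N ((p : ℤ) ^ m) g y) = 0) →
      ∀ v : H.ρ.V ⧸ ((maximalIdeal T ^ n) • (⊤ : Submodule T H.ρ.V)),
        (a.sum fun g k => k • (H.ρ.levelAction (maximalIdeal T ^ n) g) v) = 0 := by
    intro a ha v
    obtain ⟨v, rfl⟩ := Submodule.Quotient.mk_surjective _ v
    have h1 : ∀ y : JZero N, p ^ m • y = 0 → (a.sum fun g k => k • (g • y)) = 0 := by
      intro y hy
      have hy' : y ∈ Submodule.torsionBy ℤ (JZero N) ((p : ℤ) ^ m) := by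
        rw [Submodule.mem_torsionBy_iff, ← Nat.cast_pow, natCast_zsmul]
        exact hy
      have h2 := congrArg (Subtype.val) (ha ⟨y, hy'⟩)
      rw [Finsupp.sum, AddSubmonoidClass.coe_finsetSum] at h2
      rw [Finsupp.sum]
      simpa using h2
    have h3 := hm a h1 v
    have h4 : (a.sum fun g k => k • (H.ρ.levelAction (maximalIdeal T ^ n) g)
          (Submodule.Quotient.mk v))
        = Submodule.Quotient.mk (a.sum fun g k => k • H.ρ.ρ g v) := by
      rw [Finsupp.sum, Finsupp.sum]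
      have h5 : (Submodule.Quotient.mk (∑ g ∈ a.support, a g • H.ρ.ρ g v) :
          H.ρ.V ⧸ ((maximalIdeal T ^ n) • (⊤ : Submodule T H.ρ.V)))
          = ((maximalIdeal T ^ n) • (⊤ : Submodule T H.ρ.V)).mkQ
            (∑ g ∈ a.support, a g • H.ρ.ρ g v) := rfl
      rw [h5, map_sum]
      refine Finset.sum_congr rfl fun g _ => ?_
      rw [Submodule.mkQ_apply, ff32_levelAction_mk, Submodule.Quotient.mk_smul]
    rw [h4, Submodule.Quotient.mk_eq_zero]
    exact h3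
  exact ttx_transport (P.inertiaSubgroupIn ℚ) _ _ (ffTorsAct N ((p : ℤ) ^ m))
    (fun σ => H.ρ.levelAction (maximalIdeal T ^ n) σ) hactY (ff32_act H.ρ _) hann (hgeo P hP m)

/-- **P0: the transfer.**  (KR) for all `J₀(N)[p^m]` at all places over `p` implies that the
`T`-adic representation is ordinary at `p`. -/
theorem ttp_main [Finite (IsLocalRing.ResidueField 𝒪)]
    (hp : p.Prime) (hp2 : p ≠ 2) (hp𝒪 : (p : 𝒪) ∈ IsLocalRing.maximalIdeal 𝒪)
    (hN : p ∣ N ∧ ¬ p ^ 2 ∣ N)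
    (hNS : ∀ q : ℕ, q.Prime → q ∣ N → q ∈ S)
    (H : CuspForm.HeckeGaloisRepDatum N (↑S : Set ℕ) 𝒪 θ T)
    (hres : (GaloisRepAdic.ofResidualGaloisRep H.ρ.residual).IsOrdinaryAt p)
    (hgeo : TtpGeoSpec N p) : H.ρ.IsOrdinaryAt p := by
  classical
  have hpS : p ∈ S := hNS p hp hN.1
  intro P hP
  -- the adapted basis and the inertia element
  obtain ⟨b, hbD, hbI⟩ := ttpr_basis H.ρ (P.decompositionSubgroup ℚ) (P.inertiaSubgroupIn ℚ)
    (hres P hP)
  obtain ⟨σ₀, hσ₀, hdet⟩ := ttpg_unit hp hp2 hp𝒪 hpS hNS H P hP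
  set A : Module.End T H.ρ.V := H.ρ.ρ σ₀ with hA
  set a := b.repr (A (b 0)) 0 with ha'
  set c := b.repr (A (b 0)) 1 with hc'
  set b' := b.repr (A (b 1)) 0 with hb'
  set d' := b.repr (A (b 1)) 1 with hd'
  have hc : c ∈ maximalIdeal T := hbD σ₀ (ttpg_inertia_le P σ₀ hσ₀)
  have hd : d' - 1 ∈ maximalIdeal T := by
    have := hbI σ₀ hσ₀ (b 1)
    rwa [map_sub, Finsupp.sub_apply, b.repr_self, Finsupp.single_eq_same] at this
  have hdetA : LinearMap.det A = a * d' - b' * c := by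
    rw [← LinearMap.det_toMatrix b, Matrix.det_fin_two]
    simp only [LinearMap.toMatrix_apply]
    rfl
  have ha : IsUnit (a - 1) := by
    have h1 : a - 1 = (LinearMap.det A - 1) + (-(a * (d' - 1) - b' * c)) := by
      rw [hdetA]; ring
    rw [h1]
    refine ttps_unit_add hdet ((Ideal.neg_mem_iff _).mpr ?_)
    exact Ideal.sub_mem _ (Ideal.mul_mem_left _ _ hd) (Ideal.mul_mem_left _ _ hc)
  have h0 : A (b 0) = a • b 0 + c • b 1 := by
    conv_lhs => rw [← b.sum_repr (A (b 0))]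
    rw [Fin.sum_univ_two]
  -- the submodule `L'` and the unit `u`
  set L' : Submodule T H.ρ.V := Submodule.comap (b.coord 1) (maximalIdeal T) with hL'
  have hmemL' : ∀ v : H.ρ.V, v ∈ L' ↔ b.repr v 1 ∈ maximalIdeal T := fun v => by
    rw [hL', Submodule.mem_comap, Module.Basis.coord_apply]
  have hbL' : ∀ σ ∈ P.inertiaSubgroupIn ℚ, ∀ v : H.ρ.V, H.ρ.ρ σ v - v ∈ L' :=
    fun σ hσ v => (hmemL' _).mpr (hbI σ hσ v)
  have hcL' : ∀ w ∈ L', H.ρ.ρ σ₀ w - w - (a - 1) • w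
      ∈ (maximalIdeal T) • (⊤ : Submodule T H.ρ.V) := by
    intro w hw
    rw [hmemL'] at hw
    set x := b.repr w 0 with hx
    set y := b.repr w 1 with hy
    have hw' : w = x • b 0 + y • b 1 := by
      conv_lhs => rw [← b.sum_repr w]
      rw [Fin.sum_univ_two]
    have : H.ρ.ρ σ₀ w - w - (a - 1) • w
        = (x * c) • b 1 + y • (A (b 1) - b 1 - (a - 1) • b 1) := by
      conv_lhs => rw [hw']
      rw [← hA, map_add, map_smul, map_smul, h0]
      module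
    rw [this]
    exact Submodule.add_mem _
      (Submodule.smul_mem_smul (Ideal.mul_mem_left _ _ hc) Submodule.mem_top)
      (Submodule.smul_mem_smul hw Submodule.mem_top)
  -- the finite levels
  have hE : ∀ (n : ℕ), ∀ σ ∈ P.inertiaSubgroupIn ℚ, ∀ v : H.ρ.V, ∃ v' : H.ρ.V,
      (H.ρ.ρ σ v - v) - ((A - 1) ^ n) v'
        ∈ (maximalIdeal T ^ n) • (⊤ : Submodule T H.ρ.V) := by
    intro n σ hσ v
    haveI : Finite (H.ρ.V ⧸ ((maximalIdeal T ^ n) • (⊤ : Submodule T H.ρ.V))) :=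
      ttp_finite_level H n
    exact ttpl_main (ttp_level_kr hp hp𝒪 hpS hNS H hgeo P hP n) L' hbL' σ₀ hσ₀ (a - 1) ha hcL'
      n σ hσ v
  -- the splitting
  obtain ⟨w, ψ, α, β, hβ, hα, hAw, hψA, hker, B, hB⟩ := ttps_main b A hc hd ha
  have hIw : ∀ σ ∈ P.inertiaSubgroupIn ℚ, ∀ v : H.ρ.V,
      H.ρ.ρ σ v - v ∈ Submodule.span T {w} := fun σ hσ v =>
    hker _ (ttps_limit A ψ β hβ hψA _ (fun n => hE n σ hσ v))
  refine ⟨Submodule.span T {w}, ⟨B, by rw [hB]⟩, ?_, hIw⟩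
  -- stability under the decomposition group
  intro τ hτ v hv
  obtain ⟨r, rfl⟩ := Submodule.mem_span_singleton.mp hv
  rw [map_smul]
  refine Submodule.smul_mem _ _ ?_
  obtain ⟨ui, hui⟩ := hα.exists_left_inv
  have h1 : w = ui • (A w - w) := by
    rw [hAw, show α • w - w = (α - 1) • w by rw [sub_smul, one_smul], smul_smul, hui, one_smul]
  have h2 : H.ρ.ρ τ (A w - w)
      = H.ρ.ρ (τ * σ₀ * τ⁻¹) (H.ρ.ρ τ w) - H.ρ.ρ τ w := by
    rw [map_sub, hA, ← Module.End.mul_apply, ← Module.End.mul_apply, ← map_mul, ← map_mul,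
      inv_mul_cancel_right]
  have h3 : H.ρ.ρ τ w = ui • H.ρ.ρ τ (A w - w) := by
    conv_lhs => rw [h1]
    rw [map_smul]
  rw [h3, h2]
  exact Submodule.smul_mem _ _ (hIw _ (ttpg_conj_mem P τ σ₀ hτ hσ₀) _)

end Fermat.Agent.TT
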