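import Mathlib
import Fermat.Agent.TT.P0.Top
import Fermat.Agent.TT.P0.Level
import Fermat.Agent.TT.Top

/-!
# PROGRAM TT (S33): the final glue (helper2)

`ttp_s33`: the S33 literal from the two arrows of `TT/Spec.lean`:
* (B) `TtConnSpec p` (a connected `Δ`-closed order has no `I`-trivial subquotient, `p` odd),
* (A) `TtGeomAll p` (the kernel of reduction of `J₀(N)[p^k]` at the good levels `p ∥ N`, with (α) and
  a connected order).

Chain: (A) + (B) ⟹ (helper16 `tttp_sub_of_geom`) `Γ₀` with (α), (β) ⟹ (`ttp_kr_of_sub`) (KR) at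
the good levels ⟹ (helper15 `ttx_kr_all`) (KR) at all levels `p ∥ N`, i.e. `TtpGeoSpec N p`
⟹ (`ttp_main`) `H.ρ.IsOrdinaryAt p`.
-/

set_option autoImplicit false
set_option linter.unusedSectionVars false
set_option linter.unusedVariables false
set_option linter.style.haveILetI false

noncomputable section

namespace Fermat.Agent.TT

open CongruenceSubgroup ModularCurve Fermat.Agent.FF IsLocalRing

/-- the geometric input of P0 from the arrows (A) and (B). -/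
theorem ttp_geo_of_leaves {p : ℕ} (hp : p.Prime) (hp2 : p ≠ 2) (hB : TtConnSpec p)
    (hG : TtGeomAll p) (N : ℕ) [NeZero N] (hN : p ∣ N ∧ ¬ p ^ 2 ∣ N) : TtpGeoSpec N p := by
  intro P hP m
  haveI : Fact p.Prime := ⟨hp⟩
  refine ttx_kr_all (P.inertiaSubgroupIn ℚ) p hp2 (fun N' _ k hpN hp2N hgood => ?_) N m hN.1 hN.2
  obtain ⟨Γ0, hst, hα, hβ⟩ :=
    tttp_sub_of_geom N' hp hp2 k P hP hB (hG N' k hpN hp2N hgood P hP)
  exact ttp_kr_of_sub _ _ _ Γ0 hα hβ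

variable {p : ℕ} {N : ℕ} [NeZero N] {S : Finset ℕ}
  {𝒪 : Type} [CommRing 𝒪] [IsDomain 𝒪] [IsDiscreteValuationRing 𝒪]
  [IsAdicComplete (IsLocalRing.maximalIdeal 𝒪) 𝒪]
  {θ : CuspForm.heckeAlgebra N 2 (↑S : Set ℕ) →+* IsLocalRing.ResidueField 𝒪}
  {T : Type} [CommRing T] [IsLocalRing T] [IsNoetherianRing T]
  [IsAdicComplete (IsLocalRing.maximalIdeal T) T] [Algebra 𝒪 T] [IsLocalHom (algebraMap 𝒪 T)]
  [Module.Finite 𝒪 T] [Module.Free 𝒪 T]

/-- **S33** from the arrows (A) and (B). -/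
theorem ttp_s33 [Finite (IsLocalRing.ResidueField 𝒪)]
    (hp : p.Prime) (hp2 : p ≠ 2) (hp𝒪 : (p : 𝒪) ∈ IsLocalRing.maximalIdeal 𝒪)
    (hN : p ∣ N ∧ ¬ p ^ 2 ∣ N)
    (hNS : ∀ q : ℕ, q.Prime → q ∣ N → q ∈ S)
    (H : CuspForm.HeckeGaloisRepDatum N (↑S : Set ℕ) 𝒪 θ T)
    (hres : (GaloisRepAdic.ofResidualGaloisRep H.ρ.residual).IsOrdinaryAt p)
    (hB : TtConnSpec p) (hG : TtGeomAll p) : H.ρ.IsOrdinaryAt p :=
  ttp_main hp hp2 hp𝒪 hN hNS H hres (ttp_geo_of_leaves hp hp2 hB hG N hN)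

end Fermat.Agent.TT
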