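import Mathlib
import Fermat.Agent.TT.P0.Final
import Fermat.Agent.TT.ConnMain
import Fermat.Agent.TT.Geom.Spec

/-!
# PROGRAM TT (S33): the S33 literal from arrow (B) (proved: `ttc_conn`) and the THREE leaves of
arrow (A) of `TT/Geom/Spec.lean` (helper2; dry run of the final assembly)

`ttp_s33_of_leaves`: (RED2) + (ALPHA) + (CONN) ⟹ the S33 literal.  So `Fermat/Agent/S33.lean` is this
theorem applied to the three instance theorems.
-/

set_option autoImplicit false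
set_option linter.unusedSectionVars false
set_option linter.unusedVariables false

noncomputable section

namespace Fermat.Agent.TT

open Fermat.Agent.FF

variable {p : ℕ} {N : ℕ} [NeZero N] {S : Finset ℕ}
  {𝒪 : Type} [CommRing 𝒪] [IsDomain 𝒪] [IsDiscreteValuationRing 𝒪]
  [IsAdicComplete (IsLocalRing.maximalIdeal 𝒪) 𝒪]
  {θ : CuspForm.heckeAlgebra N 2 (↑S : Set ℕ) →+* IsLocalRing.ResidueField 𝒪}
  {T : Type} [CommRing T] [IsLocalRing T] [IsNoetherianRing T]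
  [IsAdicComplete (IsLocalRing.maximalIdeal T) T] [Algebra 𝒪 T] [IsLocalHom (algebraMap 𝒪 T)]
  [Module.Finite 𝒪 T] [Module.Free 𝒪 T]

/-- **S33** from the three leaves of arrow (A) (arrow (B) is `ttc_conn`). -/
theorem ttp_s33_of_leaves [Finite (IsLocalRing.ResidueField 𝒪)]
    (hp : p.Prime) (hp2 : p ≠ 2) (hp𝒪 : (p : 𝒪) ∈ IsLocalRing.maximalIdeal 𝒪)
    (hN : p ∣ N ∧ ¬ p ^ 2 ∣ N)
    (hNS : ∀ q : ℕ, q.Prime → q ∣ N → q ∈ S)
    (H : CuspForm.HeckeGaloisRepDatum N (↑S : Set ℕ) 𝒪 θ T)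
    (hres : (GaloisRepAdic.ofResidualGaloisRep H.ρ.residual).IsOrdinaryAt p)
    (hRed : ∀ (M : ℕ) [NeZero M] [NeZero (M * p)], ¬ p ∣ M → (5 ≤ p ∨ (5 - p) ∣ M) →
      ∀ 𝔸 : ValuationSubring FfQb, 𝔸.LiesOverPrime p → TtgRed2Spec M p 𝔸)
    (hAlpha : TtgAlphaSpec) (hConn : TtgConnSpec) : H.ρ.IsOrdinaryAt p :=
  haveI : Fact p.Prime := ⟨hp⟩
  ttp_s33 hp hp2 hp𝒪 hN hNS H hres (ttc_conn p) (ttg_geomAll p hp2 hRed hAlpha hConn)

end Fermat.Agent.TT
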