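import Mathlib
import Fermat.Agent.TT.P0.Dry
import Fermat.Agent.TT.Alpha.Final
import Fermat.Agent.TT.Geom.ConnAll

/-!
# PROGRAM TT (S33): the S33 literal from the leaf (RED2) ALONE (helper2)

(ALPHA) := helper29's `ttal_alphaSpec`, (CONN) := helper24's `ttg_connSpec`, arrow (B) := helper7's
`ttc_conn` (inside `ttp_s33_of_leaves`).
-/

set_option autoImplicit false
set_option linter.unusedSectionVars false
set_option linter.unusedVariables false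

noncomputable section

namespace Fermat.Agent.TT

open Fermat.Agent.FF

variable {p : ℕ} {N : ℕ} [NeZero N] {S : Finset ℕ}
  {𝒪 : Type} [CommRing 𝒪] [IsDomain 𝒪] [IsDiscreteValuationRing 𝒪]
  [IsAdicComplete (IsLocalRing.maximalIdeal 𝒪) 𝒪]
  {θ : CuspForm.heckeAlgebra N 2 (↑S : Set ℕ) →+* IsLocalRing.ResidueField 𝒪}
  {T : Type} [CommRing T] [IsLocalRing T] [IsNoetherianRing T]
  [IsAdicComplete (IsLocalRing.maximalIdeal T) T] [Algebra 𝒪 T] [IsLocalHom (algebraMap 𝒪 T)]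
  [Module.Finite 𝒪 T] [Module.Free 𝒪 T]

/-- **S33** from the leaf (RED2) alone. -/
theorem ttp_s33_of_red2 [Finite (IsLocalRing.ResidueField 𝒪)]
    (hp : p.Prime) (hp2 : p ≠ 2) (hp𝒪 : (p : 𝒪) ∈ IsLocalRing.maximalIdeal 𝒪)
    (hN : p ∣ N ∧ ¬ p ^ 2 ∣ N)
    (hNS : ∀ q : ℕ, q.Prime → q ∣ N → q ∈ S)
    (H : CuspForm.HeckeGaloisRepDatum N (↑S : Set ℕ) 𝒪 θ T)
    (hres : (GaloisRepAdic.ofResidualGaloisRep H.ρ.residual).IsOrdinaryAt p)
    (hRed : ∀ (M : ℕ) [NeZero M] [NeZero (M * p)], ¬ p ∣ M → (5 ≤ p ∨ (5 - p) ∣ M) →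
      ∀ 𝔸 : ValuationSubring FfQb, 𝔸.LiesOverPrime p → TtgRed2Spec M p 𝔸) :
    H.ρ.IsOrdinaryAt p :=
  ttp_s33_of_leaves hp hp2 hp𝒪 hN hNS H hres hRed ttal_alphaSpec ttg_connSpec

end Fermat.Agent.TT
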